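import Fermat.Agent.Density.PlacesConj
import Fermat.Agent.Galois.Frobenius
import Mathlib.NumberTheory.Padics.Complex
import Mathlib.RingTheory.Valuation.LocalSubring
import Mathlib.Analysis.Complex.Polynomial.Basic

/-!
# A `p`-adic embedding of the algebraic integers of `ℂ` centred at a given maximal ideal
-/

set_option autoImplicit false

noncomputable section

open scoped Pointwise

namespace Fermat.Agent.TwoAdic

local notation "Qb" => AlgebraicClosure ℚ
local notation "Γℚ" => (AlgebraicClosure ℚ ≃ₐ[ℚ] AlgebraicClosure ℚ)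

local instance isAlgebraicQbar_embedding : Algebra.IsAlgebraic ℚ Qb := AlgebraicClosure.isAlgebraic ℚ

variable (p : ℕ) [Fact p.Prime]

/-- The unit ball of `PadicAlgCl p`, as a valuation subring. -/
def padicBall : ValuationSubring (PadicAlgCl p) := (Valued.v (R := PadicAlgCl p)).valuationSubring

theorem mem_padicBall {x : PadicAlgCl p} : x ∈ padicBall p ↔ ‖x‖ ≤ 1 := by
  rw [padicBall, Valuation.mem_valuationSubring_iff, PadicAlgCl.valuation_def]
  norm_cast

/-- A ring map from a field whose image of a nonunit of the pulled back ball has norm below one. -/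
theorem norm_lt_one_of_mem_nonunits {L : Type*} [Field L] (i : L →+* PadicAlgCl p) {x : L}
    (hx : x ∈ ((padicBall p).comap i).nonunits) : ‖i x‖ < 1 := by
  rw [ValuationSubring.mem_nonunits_iff_exists_mem_maximalIdeal] at hx
  obtain ⟨hmem, hmax⟩ := hx
  rw [IsLocalRing.mem_maximalIdeal, mem_nonunits_iff] at hmax
  refine lt_of_le_of_ne ((mem_padicBall p).mp hmem) fun h1 => hmax ?_
  have h0 : x ≠ 0 := fun h0 => by rw [h0, map_zero, norm_zero] at h1; exact zero_ne_one h1
  refine IsUnit.of_mul_eq_one ⟨x⁻¹, ?_⟩ (Subtype.ext (mul_inv_cancel₀ h0))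
  rw [ValuationSubring.mem_comap, mem_padicBall, map_inv₀, norm_inv, h1, inv_one]

/-- The pulled back ball lies over `p`. -/
theorem liesOverPrime_comap_padicBall {L : Type*} [Field L] [CharZero L]
    (i : L →+* PadicAlgCl p) : ((padicBall p).comap i).LiesOverPrime p := by
  show (p : L) ∈ ((padicBall p).comap i).nonunits
  rw [ValuationSubring.mem_nonunits_iff_exists_mem_maximalIdeal]
  refine ⟨natCast_mem _ p, ?_⟩
  rw [IsLocalRing.mem_maximalIdeal, mem_nonunits_iff]
  rintro h
  obtain ⟨⟨u, v, huv, huv'⟩, hu⟩ := h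
  have h1 : i (u : L) * i (v : L) = 1 := by
    rw [← map_mul, ← MulMemClass.coe_mul, huv, OneMemClass.coe_one, map_one]
  have hup : (u : L) = (p : L) := congrArg Subtype.val hu
  have h2 : ‖i (u : L)‖ < 1 := by
    rw [hup, map_natCast, ← map_natCast (algebraMap ℚ_[p] (PadicAlgCl p)), norm_algebraMap',
      Padic.norm_p]
    exact inv_lt_one_of_one_lt₀ (by exact_mod_cast (Fact.out : p.Prime).one_lt)
  have h3 : ‖i (v : L)‖ ≤ 1 := (mem_padicBall p).mp v.2
  have := congrArg norm h1
  rw [norm_mul, norm_one] at this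
  nlinarith [norm_nonneg (i (u : L)), norm_nonneg (i (v : L))]

/-- The algebraic integers of `ℂ` inside the algebraic closure of `ℚ`. -/
theorem exists_integers_hom : ∃ j : integralClosure ℤ ℂ →+* Qb, Function.Injective j := by
  let e : Qb →ₐ[ℚ] ℂ := IsAlgClosed.lift
  have hmem : ∀ b : integralClosure ℤ ℂ, (b : ℂ) ∈ e.range := by
    intro b
    obtain ⟨P, hP, hev⟩ := b.2
    have hroot : (b : ℂ) ∈ ((P.map (algebraMap ℤ Qb)).map e.toRingHom).roots := by
      rw [Polynomial.map_map, Polynomial.mem_roots (hP.map _).ne_zero, Polynomial.IsRoot.def,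
        Polynomial.eval_map, RingHom.ext_int (e.toRingHom.comp (algebraMap ℤ Qb)) (algebraMap ℤ ℂ)]
      exact hev
    rw [(IsAlgClosed.splits (P.map (algebraMap ℤ Qb))).roots_map e.toRingHom,
      Multiset.mem_map] at hroot
    obtain ⟨x, -, hx⟩ := hroot
    exact ⟨x, hx⟩
  refine ⟨((AlgEquiv.ofInjectiveField e).symm.toRingEquiv.toRingHom).comp
    (RingHom.codRestrict (integralClosure ℤ ℂ).val.toRingHom e.range hmem), fun a b h => ?_⟩
  have := (AlgEquiv.ofInjectiveField e).symm.injective h
  exact Subtype.ext (congrArg (fun z : e.range => (z : ℂ)) this)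

/-- An embedding of the algebraic integers into `PadicAlgCl p` sending a given maximal ideal over
`p` into the open ball. -/
theorem exists_padicEmbedding (𝔪 : Ideal (integralClosure ℤ ℂ)) (hmax : 𝔪 ≠ ⊤)
    (hp : (p : integralClosure ℤ ℂ) ∈ 𝔪) :
    ∃ ι : integralClosure ℤ ℂ →+* PadicAlgCl p, Function.Injective ι ∧
      ∀ b ∈ 𝔪, ‖ι b‖ < 1 := by
  obtain ⟨j, hj⟩ := exists_integers_hom
  let j' : integralClosure ℤ ℂ ≃+* j.range := RingEquiv.ofBijective j.rangeRestrict
    ⟨fun a b h => hj (congrArg Subtype.val h), j.rangeRestrict_surjective⟩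
  let I : Ideal j.range := 𝔪.map (j' : integralClosure ℤ ℂ →+* j.range)
  have hI : I ≠ ⊤ := fun h => hmax (by
    have := congrArg (Ideal.comap (j' : integralClosure ℤ ℂ →+* j.range)) h
    rwa [Ideal.comap_top, Ideal.comap_map_of_bijective (j' : integralClosure ℤ ℂ →+* j.range)
      j'.bijective] at this)
  obtain ⟨V₁, hV, hI'⟩ := I.image_subset_nonunits_valuationSubring hI
  have hmem : ∀ b ∈ 𝔪, j b ∈ V₁.nonunits := fun b hb =>
    hI' ⟨j' b, Ideal.mem_map_of_mem _ hb, rfl⟩
  have h1 : V₁.LiesOverPrime p := by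
    have := hmem _ hp
    rwa [map_natCast] at this
  let i : Qb →ₐ[ℚ] PadicAlgCl p := IsAlgClosed.lift
  obtain ⟨a, ha⟩ := Density.exists_smul_eq (Fact.out : p.Prime) h1
    (liesOverPrime_comap_padicBall p i.toRingHom)
  refine ⟨(i.toRingHom.comp a.toAlgHom.toRingHom).comp j,
    i.toRingHom.injective.comp (a.injective.comp hj), fun b hb => ?_⟩
  refine norm_lt_one_of_mem_nonunits p i.toRingHom ?_
  rw [ha]
  exact (Density.smul_mem_nonunits_smul_iff (a := a)).mpr (hmem b hb)

end Fermat.Agent.TwoAdic
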