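import Fermat.Agent.TwoAdic.Points.LineTools
import Mathlib.Algebra.CharP.Two

/-!
# Descent of a signed line from an extension

If a representation over a discrete valuation ring acquires, after extending scalars, a signed
line at `P` with sign `±1`, and the chosen element acts residually nontrivially, then the line is
defined over the ring itself.
-/

set_option autoImplicit false

noncomputable section

open IsLocalRing

namespace Fermat.Agent.TwoAdic

open Deformation (Mat matOf)

local notation "Qb" => AlgebraicClosure ℚ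
local notation "Γℚ" => (AlgebraicClosure ℚ ≃ₐ[ℚ] AlgebraicClosure ℚ)

variable {O O' : Type} [CommRing O] [IsDomain O] [IsDiscreteValuationRing O] [CommRing O']
  [IsDomain O'] [IsLocalRing O'] (j : O →+* O') [IsLocalHom j]

omit [IsLocalRing O'] in
/-- A root of `x + y c = 0` in the extension lies in the base. -/
theorem exists_preimage_of_linear (hj : Function.Injective j) {x y : O} (hy : y ≠ 0) {c : O'}
    (h : j x + j y * c = 0) : ∃ c₀ : O, j c₀ = c := by
  rcases ValuationRing.dvd_total y x with ⟨t, rfl⟩ | ⟨t, rfl⟩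
  · refine ⟨-t, mul_left_cancel₀ ((map_ne_zero_iff j hj).mpr hy) ?_⟩
    rw [map_neg, map_mul] at *
    linear_combination -h
  · have hx : x ≠ 0 := left_ne_zero_of_mul hy
    by_cases ht : IsUnit t
    · obtain ⟨u, rfl⟩ := ht
      refine ⟨-(↑u⁻¹ : O), mul_left_cancel₀ ((map_ne_zero_iff j hj).mpr hy) ?_⟩
      have : j (↑u : O) * j (↑u⁻¹ : O) = 1 := by rw [← map_mul, u.mul_inv, map_one]
      rw [map_neg, map_mul] at *
      linear_combination -h - j x * this
    · exfalso
      rw [map_mul] at h
      have h1 : (1 + j t * c) = 0 :=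
        (mul_eq_zero.mp (show j x * (1 + j t * c) = 0 by linear_combination h)).resolve_left
          ((map_ne_zero_iff j hj).mpr hx)
      have hu : IsUnit (j t) := by
        refine IsUnit.of_mul_eq_one (-c) ?_
        linear_combination -h1
      exact ht ((isUnit_map_iff j t).mp hu)

/-- A signed line over an extension descends. -/
theorem exists_signedLine_of_baseChange (hj : Function.Injective j)
    (h2 : ((2 : ℕ) : O) ∈ maximalIdeal O) {ρ : GaloisRepAdic O}
    {P : ValuationSubring Qb} {F : Γℚ} (hF : F ∈ P.decompositionSubgroup ℚ) (hne : ρ.residual.ρ F ≠ 1)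
    {u : O'} (hu : u ^ 2 = 1)
    (h : HasSignedLineAt (ρ.baseChangeAlong j ‹IsLocalHom j›) P F u) :
    ∃ u₀ : O, u₀ ^ 2 = 1 ∧ HasSignedLineAt ρ P F u₀ := by
  have hI : ∀ σ ∈ P.inertiaSubgroupIn ℚ, σ ∈ P.decompositionSubgroup ℚ := by
    rintro σ ⟨τ, -, rfl⟩
    exact τ.2
  let b := Deformation.someBasis ρ
  obtain ⟨b', hb'⟩ := Deformation.exists_basis_baseChangeAlong ρ b j ‹IsLocalHom j›
  obtain ⟨s, c, hfr⟩ := exists_frame_of_hasSignedLineAt b' hF hI h
  have hmap : ∀ σ, matOf (ρ.baseChangeAlong j ‹IsLocalHom j›).ρ b' σ = (matOf ρ.ρ b σ).map j :=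
    fun σ => DFunLike.congr_fun hb' σ
  set M := matOf ρ.ρ b F with hM
  -- the residual matrix is not the identity
  have hres : M.map (residue O) ≠ 1 := fun h1 => hne (by
    refine (Deformation.matOf_baseChange (ResidueField O) ρ.ρ b ρ.residual.ρ (fun _ => rfl) F).trans h1
      |> fun e => ?_
    exact (map_eq_one_iff _
      (LinearMap.toMatrixAlgEquiv (Algebra.TensorProduct.basis (ResidueField O) b)).injective).mp e)
  -- the sign is rational
  obtain ⟨ε, hε, hεj⟩ : ∃ ε : O, ε ^ 2 = 1 ∧ j ε = u := by
    rcases sq_eq_one_iff.mp hu with rfl | rfl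
    · exact ⟨1, one_pow 2, map_one j⟩
    · exact ⟨-1, by ring, by rw [map_neg, map_one]⟩
  set a : O := M.trace - ε with ha
  set T : Mat O' := inFrame s c (M.map j) with hTdef
  have hT10 : T 1 0 = 0 := by rw [hTdef, hM, ← hmap]; exact hfr.frob_upper
  have hT11 : T 1 1 = j ε := by rw [hTdef, hM, ← hmap, hεj]; exact hfr.frob
  have hT00 : T 0 0 = j a := by
    have ht := trace_inFrame s c (M.map j)
    rw [← hTdef, Matrix.trace_fin_two, hT11] at ht
    rw [ha, map_sub, eq_sub_iff_add_eq, ht]
    exact (AddMonoidHom.map_trace j.toAddMonoidHom M).symm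
  set N : Mat O := M - a • (1 : Mat O) with hN
  have hNj : N.map j = M.map j - j a • (1 : Mat O') := by
    ext i k
    by_cases hik : i = k <;> simp [hN, hik]
  have hcol : ∀ i, (N.map j * lineFrame s c) i 0 = 0 := by
    intro i
    have e : N.map j * lineFrame s c = lineFrame s c * inFrame s c (N.map j) := by
      rw [inFrame, ← Matrix.mul_assoc, ← Matrix.mul_assoc, lineFrame_mul_inv, Matrix.one_mul]
    rw [e, hNj, inFrame_sub_smul_one, ← hTdef, Matrix.mul_apply, Fin.sum_univ_two]
    simp [hT10, hT00]
  have hNne : N ≠ 0 := by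
    intro h0
    have hMa : M = a • (1 : Mat O) := sub_eq_zero.mp h0
    have hea : a = ε := by
      apply hj
      rw [← hT11, hTdef, hMa]
      have : (a • (1 : Mat O)).map j = j a • (1 : Mat O') := by
        ext i k
        by_cases hik : i = k <;> simp [hik]
      rw [this, inFrame, Matrix.mul_smul, Matrix.mul_one, Matrix.smul_mul, lineFrameInv_mul]
      simp
    refine hres ?_
    have h4 : (2 : ResidueField O) = 0 := by
      rw [← map_ofNat (residue O) 2, residue_eq_zero_iff]
      exact_mod_cast h2
    have haone : residue O a = 1 := by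
      have hsq : residue O a ^ 2 = 1 := by rw [hea, ← map_pow, hε, map_one]
      have : (residue O a - 1) ^ 2 = 0 := by linear_combination hsq + (1 - residue O a) * h4
      exact sub_eq_zero.mp (pow_eq_zero_iff two_ne_zero |>.mp this)
    rw [hMa]
    ext i k
    rcases eq_or_ne i k with rfl | hik
    · simp [haone]
    · simp [hik]
  obtain ⟨c₀, hc₀⟩ : ∃ c₀ : O, j c₀ = c := by
    cases s with
    | true =>
      by_cases hcon : ∀ i, N i 1 = 0
      · refine absurd (Matrix.ext fun i k => ?_) hNne
        have hi := hcol i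
        simp [lineFrame, Matrix.mul_apply, Fin.sum_univ_two, hcon i,
          map_eq_zero_iff j hj] at hi
        fin_cases k
        · exact hi
        · exact hcon i
      · push Not at hcon
        obtain ⟨i, hi⟩ := hcon
        refine exists_preimage_of_linear j hj (x := N i 0) hi ?_
        have := hcol i
        simpa [lineFrame, Matrix.mul_apply, Fin.sum_univ_two, mul_comm] using this
    | false =>
      by_cases hcon : ∀ i, N i 0 = 0
      · refine absurd (Matrix.ext fun i k => ?_) hNne
        have hi := hcol i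
        simp [lineFrame, Matrix.mul_apply, Fin.sum_univ_two, hcon i,
          map_eq_zero_iff j hj] at hi
        fin_cases k
        · exact hcon i
        · exact hi
      · push Not at hcon
        obtain ⟨i, hi⟩ := hcon
        refine exists_preimage_of_linear j hj (x := N i 1) hi ?_
        have := hcol i
        simp [lineFrame, Matrix.mul_apply, Fin.sum_univ_two] at this
        linear_combination this
  subst hc₀
  have hpull : ∀ σ i k, inFrame s (j c₀) (matOf (ρ.baseChangeAlong j ‹IsLocalHom j›).ρ b' σ) i k =
      j (inFrame s c₀ (matOf ρ.ρ b σ) i k) := fun σ i k => by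
    rw [hmap, ← inFrame_map, Matrix.map_apply]
  refine ⟨ε, hε, hasSignedLineAt_of_frame b (s := s) (c := c₀)
    ⟨fun σ hσ => hj ?_, fun σ hσ => hj ?_, fun σ hσ => hj ?_, hj ?_, hj ?_⟩⟩
  · rw [← hpull, map_zero]; exact hfr.upper σ hσ
  · rw [← hpull, map_one]; exact hfr.inertia σ hσ
  · rw [← hpull, map_zero]; exact hfr.inertia_upper σ hσ
  · rw [← hpull, hεj]; exact hfr.frob
  · rw [← hpull, map_zero]; exact hfr.frob_upper

end Fermat.Agent.TwoAdic
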