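import Fermat.Agent.TwoAdic.Points.SignLine
import Fermat.Agent.TwoAdic.Universal.Defs
import Fermat.Agent.Deformation.Matrix
import Mathlib.NumberTheory.Cyclotomic.CyclotomicCharacter
import Mathlib.RingTheory.RootsOfUnity.PrimitiveRoots

/-!
# Signed lines and standard frames

A signed line is the same as a standard frame in which the decomposition group is upper
triangular; the cyclotomic determinant is the image of the `2`-adic cyclotomic character.
-/

set_option autoImplicit false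

noncomputable section

open IsLocalRing Module

namespace Fermat.Agent.TwoAdic

open Deformation (Mat IsCont matOf)

local notation "Qb" => AlgebraicClosure ℚ
local notation "Γℚ" => (AlgebraicClosure ℚ ≃ₐ[ℚ] AlgebraicClosure ℚ)

variable {A : Type} [CommRing A] [IsLocalRing A]

/-- A frame at `P` with unramified lower corner equal to `u` at `F`. -/
structure IsSignFrame (r : Γℚ →* Mat A) (P : ValuationSubring Qb) (F : Γℚ) (u : A) (s : Bool)
    (c : A) : Prop where
  upper : ∀ σ ∈ P.decompositionSubgroup ℚ, inFrame s c (r σ) 1 0 = 0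
  inertia : ∀ σ ∈ P.inertiaSubgroupIn ℚ, inFrame s c (r σ) 1 1 = 1
  inertia_upper : ∀ σ ∈ P.inertiaSubgroupIn ℚ, inFrame s c (r σ) 1 0 = 0
  frob : inFrame s c (r F) 1 1 = u
  frob_upper : inFrame s c (r F) 1 0 = 0

omit [IsLocalRing A] in
theorem lineFrame_col_zero (s : Bool) (c : A) :
    (fun i => lineFrame s c i 0) = bif s then ![1, c] else ![c, 1] := by
  cases s <;> ext i <;> fin_cases i <;> simp [lineFrame]

omit [IsLocalRing A] in
theorem frameInv_mulVec_lineFrame (s : Bool) (c : A) (j i : Fin 2) :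
    (lineFrameInv s c).mulVec (fun l => lineFrame s c l j) i = (1 : Mat A) i j := by
  rw [← lineFrameInv_mul s c, Matrix.mul_apply, Matrix.mulVec, dotProduct]

/-- A standard frame gives a signed line. -/
theorem hasSignedLineAt_of_frame {ρ : GaloisRepAdic A} (b : Basis (Fin 2) A ρ.V)
    {P : ValuationSubring Qb} {F : Γℚ} {u : A} {s : Bool} {c : A}
    (h : IsSignFrame (matOf ρ.ρ b) P F u s c) : HasSignedLineAt ρ P F u := by
  let G : (Mat A)ˣ := ⟨lineFrame s c, lineFrameInv s c, lineFrame_mul_inv s c, lineFrameInv_mul s c⟩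
  let e : ρ.V ≃ₗ[A] (Fin 2 → A) := b.equivFun
  let w : ρ.V → Fin 2 → A := fun x => (lineFrameInv s c).mulVec (e x)
  let b' : Basis (Fin 2) A ρ.V :=
    ((Pi.basisFun A (Fin 2)).map (LinearEquiv.ofLinearMap (Matrix.toLin' (lineFrame s c))
      (Matrix.toLin' (lineFrameInv s c))
      (by rw [← Matrix.toLin'_mul, lineFrame_mul_inv, Matrix.toLin'_one])
      (by rw [← Matrix.toLin'_mul, lineFrameInv_mul, Matrix.toLin'_one]))).map e.symm
  have hb' : e (b' 0) = fun l => lineFrame s c l 0 := by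
    simp only [b', Basis.map_apply, LinearEquiv.apply_symm_apply, LinearEquiv.coe_ofLinearMap,
      Pi.basisFun_apply, Matrix.toLin'_apply]
    ext l
    simp [Matrix.mulVec_single]
  have hmem : ∀ x : ρ.V, x ∈ (A ∙ b' 0) ↔ w x 1 = 0 := by
    intro x
    rw [Submodule.mem_span_singleton]
    constructor
    · rintro ⟨a, rfl⟩
      simp only [w, map_smul, Matrix.mulVec_smul, Pi.smul_apply, hb', smul_eq_mul]
      rw [frameInv_mulVec_lineFrame]
      simp
    · intro hx
      refine ⟨w x 0, e.injective ?_⟩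
      rw [map_smul, hb']
      have hrec : (lineFrame s c).mulVec (w x) = e x := by
        simp only [w, Matrix.mulVec_mulVec, lineFrame_mul_inv, Matrix.one_mulVec]
      rw [← hrec]
      ext l
      simp [Matrix.mulVec, dotProduct, Fin.sum_univ_two, hx, mul_comm]
  have hw : ∀ (σ : Γℚ) (x : ρ.V),
      w (ρ.ρ σ x) = (inFrame s c (matOf ρ.ρ b σ)).mulVec (w x) := by
    intro σ x
    have h1 : e (ρ.ρ σ x) = (matOf ρ.ρ b σ).mulVec (e x) :=
      (LinearMap.toMatrix_mulVec_repr b b _ x).symm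
    simp only [w, h1, inFrame, Matrix.mulVec_mulVec, Matrix.mul_assoc, lineFrame_mul_inv,
      Matrix.mul_one]
  have hwsub : ∀ x y : ρ.V, w (x - y) 1 = w x 1 - w y 1 := by
    intro x y
    simp only [w, map_sub, Matrix.mulVec_sub, Pi.sub_apply]
  refine ⟨A ∙ b' 0, ⟨b', rfl⟩, fun σ hσ x hx => ?_, fun σ hσ x => ?_, fun x => ?_⟩
  · rw [hmem] at hx ⊢
    rw [hw]
    simp [Matrix.mulVec, dotProduct, Fin.sum_univ_two, h.upper σ hσ, hx]
  · rw [hmem, hwsub, hw]
    simp [Matrix.mulVec, dotProduct, Fin.sum_univ_two, h.inertia_upper σ hσ, h.inertia σ hσ]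
  · rw [hmem, hwsub, hw]
    simp [w, Matrix.mulVec, dotProduct, Fin.sum_univ_two, h.frob_upper, h.frob]
    ring

/-- A signed line gives a standard frame. -/
theorem exists_frame_of_hasSignedLineAt {ρ : GaloisRepAdic A} (b : Basis (Fin 2) A ρ.V)
    {P : ValuationSubring Qb} {F : Γℚ} {u : A} (hF : F ∈ P.decompositionSubgroup ℚ)
    (hI : ∀ σ ∈ P.inertiaSubgroupIn ℚ, σ ∈ P.decompositionSubgroup ℚ)
    (h : HasSignedLineAt ρ P F u) : ∃ s c, IsSignFrame (matOf ρ.ρ b) P F u s c := by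
  obtain ⟨L, ⟨b', rfl⟩, hD, hIn, hFr⟩ := h
  let v : Fin 2 → A := b.equivFun (b' 0)
  have hv : IsUnit (v 0) ∨ IsUnit (v 1) := by
    by_contra hcon
    rw [not_or] at hcon
    have hdet : IsUnit (b.toMatrix b').det := by
      rw [← Basis.det_apply]; exact b.isUnit_det b'
    refine (mem_nonunits_iff.mp ((mem_maximalIdeal _).mp ?_)) hdet
    rw [Matrix.det_fin_two]
    refine sub_mem (Ideal.mul_mem_right _ _ ?_) (Ideal.mul_mem_left _ _ ?_)
    · exact (mem_maximalIdeal _).mpr hcon.1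
    · exact (mem_maximalIdeal _).mpr hcon.2
  obtain ⟨s, c, a, hva⟩ : ∃ (s : Bool) (c : A) (a : Aˣ),
      ∀ l, v l = (a : A) * lineFrame s c l 0 := by
    rcases hv with ⟨a, ha⟩ | ⟨a, ha⟩
    · refine ⟨true, (↑a⁻¹ : A) * v 1, a, fun l => ?_⟩
      fin_cases l
      · simp [lineFrame, ha]
      · simp [lineFrame]
    · refine ⟨false, (↑a⁻¹ : A) * v 0, a, fun l => ?_⟩
      fin_cases l
      · simp [lineFrame]
      · simp [lineFrame, ha]
  have hmem : ∀ x : ρ.V, x ∈ (A ∙ b' 0) →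
      (lineFrameInv s c).mulVec (b.equivFun x) 1 = 0 := by
    intro x hx
    obtain ⟨k, rfl⟩ := Submodule.mem_span_singleton.mp hx
    have e1 : b.equivFun (k • b' 0) = (k * (a : A)) • fun l => lineFrame s c l 0 := by
      rw [map_smul]
      ext l
      simp only [Pi.smul_apply, smul_eq_mul]
      rw [show b.equivFun (b' 0) l = v l from rfl, hva, mul_assoc]
    rw [e1, Matrix.mulVec_smul, Pi.smul_apply, frameInv_mulVec_lineFrame]
    simp
  let col : Fin 2 → ρ.V := fun j => b.equivFun.symm fun l => lineFrame s c l j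
  have hcol0 : col 0 ∈ (A ∙ b' 0) := by
    refine Submodule.mem_span_singleton.mpr ⟨(↑a⁻¹ : A), b.equivFun.injective ?_⟩
    rw [map_smul, LinearEquiv.apply_symm_apply]
    ext l
    rw [Pi.smul_apply, smul_eq_mul, show b.equivFun (b' 0) l = v l from rfl, hva,
      Units.inv_mul_cancel_left]
  have hent : ∀ (σ : Γℚ) (k : A) (j : Fin 2), ρ.ρ σ (col j) - k • col j ∈ (A ∙ b' 0) →
      inFrame s c (matOf ρ.ρ b σ) 1 j = k * (1 : Mat A) 1 j := by
    intro σ k j hx
    have h1 : b.equivFun (ρ.ρ σ (col j)) =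
        (matOf ρ.ρ b σ).mulVec fun l => lineFrame s c l j := by
      rw [← b.equivFun.apply_symm_apply fun l => lineFrame s c l j]
      exact (LinearMap.toMatrix_mulVec_repr b b _ _).symm
    have h2 := hmem _ hx
    rw [map_sub, map_smul, h1, LinearEquiv.apply_symm_apply, Matrix.mulVec_sub,
      Matrix.mulVec_smul, Matrix.mulVec_mulVec, Pi.sub_apply, Pi.smul_apply,
      frameInv_mulVec_lineFrame, smul_eq_mul] at h2
    rw [← sub_eq_zero.mp h2, inFrame, Matrix.mul_apply, Matrix.mulVec, dotProduct]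
  have hup : ∀ σ ∈ P.decompositionSubgroup ℚ, inFrame s c (matOf ρ.ρ b σ) 1 0 = 0 := by
    intro σ hσ
    rw [hent σ 0 0 (by rw [zero_smul, sub_zero]; exact hD σ hσ _ hcol0)]
    simp
  refine ⟨s, c, hup, fun σ hσ => ?_, fun σ hσ => hup σ (hI σ hσ), ?_, hup F hF⟩
  · rw [hent σ 1 1 (by rw [one_smul]; exact hIn σ hσ _)]
    simp
  · rw [hent F u 1 (hFr _)]
    simp

omit [IsLocalRing A] in
/-- The exponent of the action on `2^n`-th roots of unity is the cyclotomic character. -/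
theorem cyclotomicCharacter_sub_natCast_mem (σ : Γℚ) (n a : ℕ)
    (ha : ∀ μ : Qb, μ ^ 2 ^ n = 1 → σ μ = μ ^ a) :
    ((cyclotomicCharacter Qb 2 σ.toRingEquiv : ℤ_[2]ˣ) : ℤ_[2]) - (a : ℤ_[2]) ∈
      Ideal.span {((2 ^ n : ℕ) : ℤ_[2])} := by
  set χ : ℤ_[2] := ((cyclotomicCharacter Qb 2 σ.toRingEquiv : ℤ_[2]ˣ) : ℤ_[2])
  have : NeZero (2 ^ n : Qb) := ⟨pow_ne_zero _ two_ne_zero⟩
  have : NeZero ((2 ^ n : ℕ) : Qb) := ⟨by exact_mod_cast pow_ne_zero n (two_ne_zero : (2 : Qb) ≠ 0)⟩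
  obtain ⟨ζ, hζ⟩ := HasEnoughRootsOfUnity.exists_primitiveRoot Qb (2 ^ n)
  have h1 : σ ζ = ζ ^ (PadicInt.toZModPow n χ).val :=
    cyclotomicCharacter.spec (L := Qb) 2 σ.toRingEquiv ζ hζ.pow_eq_one
  rw [ha ζ hζ.pow_eq_one] at h1
  replace h1 : a ≡ (PadicInt.toZModPow n χ).val [MOD 2 ^ n] := by
    generalize (PadicInt.toZModPow n χ).val = k at h1 ⊢
    have hu : IsUnit ζ := hζ.isUnit (by positivity)
    rw [hζ.eq_orderOf, ← hu.unit_spec, orderOf_units, ← pow_eq_pow_iff_modEq]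
    exact Units.ext (by simpa using h1)
  rw [Nat.cast_pow, Nat.cast_ofNat, show (2 : ℤ_[2]) = ((2 : ℕ) : ℤ_[2]) by norm_num,
    ← PadicInt.ker_toZModPow, RingHom.mem_ker, map_sub, map_natCast, sub_eq_zero]
  rw [← ZMod.natCast_zmod_val (PadicInt.toZModPow n χ)]
  exact ((ZMod.natCast_eq_natCast_iff _ _ _).mpr h1).symm

/-- A cyclotomic determinant is the image of the `2`-adic cyclotomic character. -/
theorem det_eq_cyclotomicCharacter [Algebra ℤ_[2] A] [IsHausdorff (maximalIdeal A) A]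
    {ρ : GaloisRepAdic A} (h : ρ.DetIsCyclotomic 2) (σ : Γℚ) :
    LinearMap.det (ρ.ρ σ) =
      algebraMap ℤ_[2] A (cyclotomicCharacter Qb 2 σ.toRingEquiv : ℤ_[2]ˣ) := by
  set χ : ℤ_[2] := ((cyclotomicCharacter Qb 2 σ.toRingEquiv : ℤ_[2]ˣ) : ℤ_[2])
  refine sub_eq_zero.mp (IsHausdorff.haus ‹_› _ fun n => ?_)
  rw [SModEq.zero, smul_eq_mul, Ideal.mul_top]
  have hspec : ∀ μ : Qb, μ ^ 2 ^ n = 1 → σ μ = μ ^ (PadicInt.toZModPow n χ).val := fun μ hμ =>
    cyclotomicCharacter.spec (L := Qb) 2 σ.toRingEquiv μ hμ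
  have h1 := h.2 n σ _ hspec
  have h2 := Ideal.mem_map_of_mem (algebraMap ℤ_[2] A)
    (cyclotomicCharacter_sub_natCast_mem σ n _ hspec)
  rw [Ideal.map_span, Set.image_singleton, map_natCast, map_sub, map_natCast] at h2
  have hle : Ideal.span {((2 ^ n : ℕ) : A)} ≤ maximalIdeal A ^ n := by
    rw [Ideal.span_singleton_le_iff_mem, Nat.cast_pow]
    exact Ideal.pow_mem_pow h.1 n
  have := hle (Ideal.sub_mem _ h1 h2)
  rwa [sub_sub_sub_cancel_right] at this

end Fermat.Agent.TwoAdic
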