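import Fermat.Agent.BadPrime.AssemblyS34
import Fermat.Agent.BadPrime.AssemblyS35
import Fermat.Agent.TwoAdic.Points.LineTools
import Fermat.Agent.RT.LocalQ.Rep

/-!
# The signed line of a newform at an odd prime exactly dividing the level
-/

set_option autoImplicit false
set_option linter.style.haveILetI false

noncomputable section

open IsLocalRing Module Polynomial CongruenceSubgroup ModularCurve

namespace Fermat.Agent.TwoAdic

open BadPrime (HasEigenRep IsNewformTateRep InertiaUnipotentTorsion FrobeniusSqTorsion)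

local notation "Qb" => AlgebraicClosure ℚ
local notation "Γℚ" => (AlgebraicClosure ℚ ≃ₐ[ℚ] AlgebraicClosure ℚ)

/-- A newform has a signed line at every odd prime exactly dividing its level. -/
theorem exists_signedLine_of_newform (hrep : ∀ (N : ℕ) [NeZero N], HasEigenRep N)
    {M : ℕ} [NeZero M] {g : CuspForm (Gamma0 M) 2} (hg : g.IsNewform)
    {O : Type} [CommRing O] [IsDomain O] [IsDiscreteValuationRing O]
    [IsAdicComplete (maximalIdeal O) O] [CharZero O] (h2 : ((2 : ℕ) : O) ∈ maximalIdeal O)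
    (ρ : GaloisRepAdic O) (hdet : ρ.DetIsCyclotomic 2) (htate : IsNewformTateRep g 2 ρ)
    {q : ℕ} (hq : q.Prime) (hq2 : q ≠ 2) (hqM : q ∣ M) (hsq : ¬ q ^ 2 ∣ M)
    (hgeo : ∀ (M' : ℕ) [NeZero M'] [NeZero q], ¬ q ∣ M' → M' * q = M →
      InertiaUnipotentTorsion M' q ∧ FrobeniusSqTorsion M' q)
    {P : ValuationSubring Qb} (hP : P.LiesOverPrime q) {F : Γℚ}
    (hF : F ∈ P.decompositionSubgroup ℚ) :
    ∃ u : O, u ^ 2 = 1 ∧ HasSignedLineAt ρ P F u := by
  obtain ⟨M', rfl⟩ : ∃ M', M = M' * q := ⟨M / q, (Nat.div_mul_cancel hqM).symm⟩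
  have hqM' : ¬ q ∣ M' := fun h => hsq (by rw [pow_two]; exact mul_dvd_mul_right h q)
  haveI : NeZero q := ⟨hq.ne_zero⟩
  haveI : NeZero M' := ⟨fun h => NeZero.ne (M' * q) (by rw [h, zero_mul])⟩
  obtain ⟨hI, hS⟩ := hgeo M' hqM' rfl
  obtain ⟨c₀, hfam⟩ := BadPrime.exists_killed_family rfl hq.ne_one (hrep _) (hrep M') hg
    Nat.prime_two h2 htate
  obtain ⟨φ, χ, -, -, -, ht⟩ := htate
  obtain ⟨T, rfl⟩ := RT.exists_tamePair Nat.prime_two hq (Ne.symm hq2) P hP
  let b := Deformation.someBasis ρ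
  have huni : ∀ τ ∈ T.A.inertiaSubgroupIn ℚ,
      (Deformation.matOf ρ.ρ b τ).charpoly = (X - 1) ^ 2 := fun τ hτ => by
    rw [Deformation.matOf_apply, LinearMap.charpoly_toMatrix]
    exact BadPrime.charpoly_inertia_of_tate hq hI Nat.prime_two hq2 h2 ρ ht T.hA hτ
  have hfrob : (Deformation.matOf ρ.ρ b T.F).charpoly =
        X ^ 2 - C ((q : O) + 1) * X + C (q : O) ∨
      (Deformation.matOf ρ.ρ b T.F).charpoly = X ^ 2 + C ((q : O) + 1) * X + C (q : O) := by
    rw [Deformation.matOf_apply, LinearMap.charpoly_toMatrix]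
    exact BadPrime.charpoly_frobenius_of_killed hq hS Nat.prime_two hq2 h2 ρ hdet c₀ hfam T.hA T.hF
  obtain ⟨s, c, ε, -, -, -, hD, hIn⟩ := exists_signLine T Nat.prime_two hq (Ne.symm hq2) h2
    (Deformation.isCont_matOf ρ b) huni hfrob
  refine ⟨inFrame s c (Deformation.matOf ρ.ρ b F) 1 1, (hD F hF).2,
    hasSignedLineAt_of_frame b (s := s) (c := c) ⟨fun σ hσ => (hD σ hσ).1, hIn,
      fun σ hσ => (hD σ ?_).1, rfl, (hD F hF).1⟩⟩
  obtain ⟨τ, -, rfl⟩ := hσ
  exact τ.2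

end Fermat.Agent.TwoAdic
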