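import Fermat.Agent.TwoAdic.Points.Descent
import Fermat.Agent.TwoAdic.Points.OddLine
import Fermat.Agent.TwoAdic.Points.Embedding
import Fermat.Agent.TwoAdic.Points.LineDescent
import Fermat.Agent.TwoAdic.Contracts.Props
import Fermat.Agent.BadPrime.TateRep
import Fermat.Agent.BadPrime.Systems
import Fermat.Agent.HeckeFinite.Finite
import Fermat.Agent.RT.FreyResidual

/-!
# Newform systems are points of the signed-line ring

`systemPoints_of` proves `SystemPoints` from the Eichler–Shimura inputs, the two geometric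
statements at odd primes exactly dividing the level and the line at `2`.
-/

set_option autoImplicit false
set_option linter.style.haveILetI false

noncomputable section

open IsLocalRing Polynomial CongruenceSubgroup ModularFormClass

namespace Fermat.Agent.TwoAdic

open BadPrime (HasEigenRep IsNewformTateRep InertiaUnipotentTorsion FrobeniusSqTorsion)

local notation "Qb" => AlgebraicClosure ℚ
local notation "Γℚ" => (AlgebraicClosure ℚ ≃ₐ[ℚ] AlgebraicClosure ℚ)

/-- The input at `2`: a newform whose level `4` does not divide and whose representation reduces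
to `V[2]` has a signed line at `2`. -/
def SignedLineAtTwo : Prop :=
  ∀ (V : WeierstrassCurve ℤ) (hV : IsTresModel V) (L : ℕ) [NeZero L], ¬ 2 ^ 2 ∣ L →
    ∀ (g : CuspForm (Gamma0 L) 2), g.IsNewform →
    ∀ (O : Type) [CommRing O] [IsDomain O] [IsDiscreteValuationRing O]
      [IsAdicComplete (maximalIdeal O) O] [Finite (ResidueField O)] [CharZero O]
      [Algebra ℤ_[2] O] [Module.Finite ℤ_[2] O] [IsLocalHom (algebraMap ℤ_[2] O)],
      ((2 : ℕ) : O) ∈ maximalIdeal O →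
    ∀ ρ : GaloisRepAdic O, ρ.DetIsCyclotomic 2 → IsNewformTateRep g 2 ρ →
    ∀ ψ : ResidueField ℤ_[2] →+* ResidueField O,
      ρ.residual.IsEquiv ((residualTwo V hV.delta_ne_zero).baseChangeAlong ψ) →
    ∀ P : ValuationSubring Qb, P.LiesOverPrime 2 → ∀ F : Γℚ, P.IsFrobeniusAt F 2 →
      F ∈ P.decompositionSubgroup ℚ → (residualTwo V hV.delta_ne_zero).ρ F ≠ 1 →
      ∃ u : O, u ^ 2 = 1 ∧ HasSignedLineAt ρ P F u

/-- The input at `2`, with the line allowed to live over an extension. -/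
def SignedLineAtTwoExt : Prop :=
  ∀ (V : WeierstrassCurve ℤ) (hV : IsTresModel V) (L : ℕ) [NeZero L], ¬ 2 ^ 2 ∣ L →
    ∀ (g : CuspForm (Gamma0 L) 2), g.IsNewform →
    ∀ (O : Type) [CommRing O] [IsDomain O] [IsDiscreteValuationRing O]
      [IsAdicComplete (maximalIdeal O) O] [Finite (ResidueField O)] [CharZero O]
      [Algebra ℤ_[2] O] [Module.Finite ℤ_[2] O] [IsLocalHom (algebraMap ℤ_[2] O)],
      ((2 : ℕ) : O) ∈ maximalIdeal O →
    ∀ ρ : GaloisRepAdic O, ρ.DetIsCyclotomic 2 → IsNewformTateRep g 2 ρ →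
    ∀ ψ : ResidueField ℤ_[2] →+* ResidueField O,
      ρ.residual.IsEquiv ((residualTwo V hV.delta_ne_zero).baseChangeAlong ψ) →
    ∀ P : ValuationSubring Qb, P.LiesOverPrime 2 → ∀ F : Γℚ, P.IsFrobeniusAt F 2 →
      F ∈ P.decompositionSubgroup ℚ → (residualTwo V hV.delta_ne_zero).ρ F ≠ 1 →
      ∃ (O' : Type) (_ : CommRing O') (_ : IsDomain O') (_ : IsLocalRing O') (j : O →+* O')
        (hj : IsLocalHom j), Function.Injective j ∧
        ∃ u : O', u ^ 2 = 1 ∧ HasSignedLineAt (ρ.baseChangeAlong j hj) P F u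

/-- The line over an extension descends. -/
theorem signedLineAtTwo_of_ext (h : SignedLineAtTwoExt) : SignedLineAtTwo := by
  intro V hV L _ h4L g hg O _ _ _ _ _ _ _ _ _ h2O ρ hdet htate ψ hres P hP F hF hFD hne
  obtain ⟨O', _, _, _, j, hj, hjinj, u, hu, hl⟩ :=
    h V hV L h4L g hg O h2O ρ hdet htate ψ hres P hP F hF hFD hne
  refine exists_signedLine_of_baseChange j hjinj h2O hFD (fun h1 => hne ?_) hu hl
  obtain ⟨e⟩ := hres
  let b := Module.finBasisOfFinrankEq _ _ (residualTwo V hV.delta_ne_zero).finrank_eq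
  refine (map_residue_eq_one_iff b ψ F).mp ?_
  letI : Algebra (ResidueField ℤ_[2]) (ResidueField O) := ψ.toAlgebra
  have h2 : ((residualTwo V hV.delta_ne_zero).baseChangeAlong ψ).ρ F = 1 := LinearMap.ext fun x => by
    have := e.map_apply F (e.toLinearEquiv.symm x)
    rw [h1, LinearEquiv.apply_symm_apply] at this
    simpa using this.symm
  refine (Deformation.matOf_baseChange (ResidueField O) (residualTwo V hV.delta_ne_zero).ρ b
    ((residualTwo V hV.delta_ne_zero).baseChangeAlong ψ).ρ (fun _ => rfl) F).symm.trans ?_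
  exact (RT.matOf_eq_one_iff _ _ F).mpr h2

/-- Elements integral over `ℤ_p` lie in the unit ball. -/
theorem norm_le_one_of_isIntegral_padic (p : ℕ) [Fact p.Prime] {x : PadicAlgCl p}
    (hx : IsIntegral ℤ_[p] x) : ‖x‖ ≤ 1 := by
  obtain ⟨P, hP, hev⟩ := hx
  by_contra! hlt
  have hn : 0 < P.natDegree := by
    rcases Nat.eq_zero_or_pos P.natDegree with h | h
    · rw [Polynomial.eq_one_of_monic_natDegree_zero hP h] at hev
      simp at hev
    · exact h
  rw [Polynomial.eval₂_eq_sum_range, Finset.sum_range_succ, hP.coeff_natDegree, map_one, one_mul,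
    add_eq_zero_iff_neg_eq] at hev
  have hbound : ‖∑ i ∈ Finset.range P.natDegree,
      algebraMap ℤ_[p] (PadicAlgCl p) (P.coeff i) * x ^ i‖ < ‖x ^ P.natDegree‖ := by
    obtain ⟨i, hi, hle⟩ := IsUltrametricDist.exists_norm_finsetSum_le_of_nonempty
      (t := Finset.range P.natDegree) ⟨0, Finset.mem_range.mpr hn⟩
      (fun i => algebraMap ℤ_[p] (PadicAlgCl p) (P.coeff i) * x ^ i)
    refine hle.trans_lt ?_
    rw [norm_mul, norm_pow, norm_pow, IsScalarTower.algebraMap_apply ℤ_[p] ℚ_[p] (PadicAlgCl p),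
      norm_algebraMap']
    calc ‖algebraMap ℤ_[p] ℚ_[p] (P.coeff i)‖ * ‖x‖ ^ i ≤ 1 * ‖x‖ ^ i := by
          exact mul_le_mul_of_nonneg_right (PadicInt.norm_le_one (P.coeff i)) (by positivity)
      _ < ‖x‖ ^ P.natDegree := by
          rw [one_mul]
          exact pow_lt_pow_right₀ hlt (Finset.mem_range.mp hi)
  rw [← hev, norm_neg] at hbound
  exact lt_irrefl _ hbound

/-- The characteristic polynomial of a reduction. -/
theorem charpoly_residual_eq {A : Type} [CommRing A] [IsLocalRing A] (ρ : GaloisRepAdic A)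
    (σ : Γℚ) :
    LinearMap.charpoly (ρ.residual.ρ σ) = (LinearMap.charpoly (ρ.ρ σ)).map (residue A) := by
  show LinearMap.charpoly ((ρ.ρ σ).baseChange (ResidueField A)) = _
  rw [LinearMap.charpoly_baseChange]
  rfl

/-- The characteristic polynomial of an extension of scalars. -/
theorem charpoly_baseChangeAlong_eq {k k' : Type} [Field k] [Field k'] (ψ : k →+* k')
    (ρ : ResidualGaloisRep k) (σ : Γℚ) :
    LinearMap.charpoly ((ρ.baseChangeAlong ψ).ρ σ) = (LinearMap.charpoly (ρ.ρ σ)).map ψ := by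
  letI : Algebra k k' := ψ.toAlgebra
  show LinearMap.charpoly ((ρ.ρ σ).baseChange k') = _
  rw [LinearMap.charpoly_baseChange]
  rfl

/-- A congruent newform whose level has every odd prime of `signSet` and divides `auxLevel` is a
point of the signed-line ring. -/
theorem exists_point_of_newform (hrep : ∀ (N : ℕ) [NeZero N], HasEigenRep N)
    (hgeo : ∀ (M q : ℕ) [NeZero M] [NeZero q], q.Prime → q ≠ 2 → ¬ q ∣ M →
      InertiaUnipotentTorsion M q ∧ FrobeniusSqTorsion M q)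
    (hirr : ResidualIrreducible) (htwo : SignedLineAtTwo)
    {V : WeierstrassCurve ℤ} (hV : IsTresModel V) {n : ℕ} {Q : Finset ℕ} (hQ : IsAuxSet V n Q)
    {𝔪 : Ideal (integralClosure ℤ ℂ)} {pl : SignedPlaces (signSet V Q)} (hover : IsPlacesOver pl)
    (hbar : IsResidualSigned (residualTwo V hV.delta_ne_zero) pl)
    (D : SignedRingData (residualTwo V hV.delta_ne_zero) pl)
    (ι : integralClosure ℤ ℂ →+* PadicAlgCl 2) (hι𝔪 : ∀ b ∈ 𝔪, ‖ι b‖ < 1)
    {L₀ : ℕ} [NeZero L₀] (hL₀ : L₀ ∣ auxLevel V Q)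
    (hodd : ∀ q ∈ signSet V Q, q ≠ 2 → q ∣ L₀)
    {g : CuspForm (Gamma0 L₀) 2} (hg : g.IsNewform)
    (hcong : ∀ ℓ : HeckeIndex (auxLevel V Q), ∃ b : integralClosure ℤ ℂ,
      (b : ℂ) = qCoeff g (ℓ.1 : ℕ) ∧
        b - ((V.apOfModel (ℓ.1 : ℕ) : ℤ) : integralClosure ℤ ℂ) ∈ 𝔪) :
    ∃ φ : D.R →ₐ[ℤ_[2]] PadicAlgCl 2,
      ∀ (ℓ : HeckeIndex (auxLevel V Q)) (A : ValuationSubring Qb), A.LiesOverPrime (ℓ.1 : ℕ) →
        ∀ σ : Γℚ, A.IsFrobeniusAt σ (ℓ.1 : ℕ) →
          ∃ b : integralClosure ℤ ℂ, (b : ℂ) = qCoeff g (ℓ.1 : ℕ) ∧ φ (D.ρ.trace σ) = ι b := by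
  classical
  have hprime : ∀ p ∈ signSet V Q, p.Prime := fun p hp => by
    rcases Finset.mem_union.mp hp with h | h
    · exact Nat.prime_of_mem_primeFactors h
    · exact (hQ.aux p h).prime
  have hΔ := hV.delta_ne_zero
  haveI := EC.isElliptic_map_rat hΔ
  have h2S : 2 ∈ signSet V Q := Finset.mem_union_left _ (Nat.mem_primeFactors.mpr
    ⟨Nat.prime_two, Int.natCast_dvd.mp hV.two_dvd, Int.natAbs_ne_zero.mpr hΔ⟩)
  have hmem : ∀ q : ℕ, q.Prime → (q ∣ auxLevel V Q ↔ q ∈ signSet V Q) := fun q hq => by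
    refine ⟨fun h => ?_, fun h => Finset.dvd_prod_of_mem _ h⟩
    obtain ⟨p, hp, hqp⟩ := (Nat.Prime.prime hq).exists_mem_finset_dvd h
    rwa [(Nat.prime_dvd_prime_iff_eq hq (hprime p hp)).mp hqp]
  have hsq : ∀ q : ℕ, q.Prime → ¬ q ^ 2 ∣ L₀ := by
    intro q hq h
    replace h := h.trans hL₀
    have hqS : q ∈ signSet V Q := (hmem q hq).mp ((dvd_pow_self q two_ne_zero).trans h)
    rw [auxLevel, ← Finset.mul_prod_erase _ _ hqS, pow_two] at h
    obtain ⟨p, hp, hqp⟩ :=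
      (Nat.Prime.prime hq).exists_mem_finset_dvd ((Nat.mul_dvd_mul_iff_left hq.pos).mp h)
    exact Finset.ne_of_mem_erase hp
      ((Nat.prime_dvd_prime_iff_eq hq (hprime p (Finset.mem_of_mem_erase hp))).mp hqp).symm
  -- the coefficient ring of `g` inside `PadicAlgCl 2`
  obtain ⟨χg, -, hχT, -⟩ := BadPrime.exists_eigenChar hg.1 (↑(signSet V Q) : Set ℕ)
  haveI := HeckeFinite.moduleFinite_heckeAlgebra L₀ 2 (↑(signSet V Q) : Set ℕ)
  haveI hfinR : Module.Finite ℤ χg.range :=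
    Module.Finite.of_surjective χg.rangeRestrict.toIntAlgHom.toLinearMap
      χg.rangeRestrict_surjective
  let inc : χg.range →+* integralClosure ℤ ℂ :=
    RingHom.codRestrict χg.range.subtype (integralClosure ℤ ℂ)
      (fun x => ((Algebra.IsIntegral.isIntegral (R := ℤ) x).map χg.range.subtype.toIntAlgHom))
  let c : χg.range →+* PadicAlgCl 2 := ι.comp inc
  have hcint : ∀ x, IsIntegral ℤ_[2] (c x) := fun x =>
    ((Algebra.IsIntegral.isIntegral (R := ℤ) x).map c.toIntAlgHom).tower_top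
  obtain ⟨s, hs⟩ := hfinR.fg_top
  let R := Algebra.adjoin ℤ_[2] ((s.image c : Finset (PadicAlgCl 2)) : Set (PadicAlgCl 2))
  haveI : Module.Finite ℤ_[2] R := by
    refine Module.Finite.iff_fg.mpr (fg_adjoin_of_finite (Finset.finite_toSet _) fun x hx => ?_)
    obtain ⟨y, -, rfl⟩ := Finset.mem_image.mp hx
    exact hcint y
  have hcR : ∀ x, c x ∈ R := fun x => by
    induction (hs ▸ Submodule.mem_top : x ∈ Submodule.span ℤ (s : Set χg.range))
      using Submodule.span_induction with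
    | mem y hy => exact Algebra.subset_adjoin (Finset.mem_image_of_mem c hy)
    | zero => rw [map_zero]; exact zero_mem _
    | add y z _ _ hy hz => rw [map_add]; exact add_mem hy hz
    | smul m y _ hy => rw [map_zsmul]; exact zsmul_mem hy m
  let cR : χg.range →+* R := RingHom.codRestrict c R hcR
  haveI : Finite (ResidueField ℤ_[2]) := Finite.of_equiv _ PadicInt.residueField.symm.toEquiv
  obtain ⟨O, iO1, iO2, iO3, iO4, iO5, iO6, iO7, iO8, iO9, hOinj, f, hf⟩ :=
    EichlerShimura.exists_finiteDVR_extension ℤ_[2] R (⊥ : Ideal R) fun x hx => by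
      have : algebraMap ℤ_[2] R x = 0 := by simpa using hx
      have h' := congrArg (fun y : R => (y : PadicAlgCl 2)) this
      simp only [Subalgebra.coe_algebraMap, ZeroMemClass.coe_zero] at h'
      rw [IsScalarTower.algebraMap_apply ℤ_[2] ℚ_[2] (PadicAlgCl 2), map_eq_zero] at h'
      exact PadicInt.coe_eq_zero.mp h'
  have hfinj : Function.Injective f := (RingHom.injective_iff_ker_eq_bot _).mpr hf
  let iota : χg.range →+* O := f.toRingHom.comp cR
  have h2O : ((2 : ℕ) : O) ∈ maximalIdeal O := by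
    rw [← map_natCast (algebraMap ℤ_[2] O)]
    exact map_nonunit _ _ PadicInt.p_nonunit
  have hLS : ∀ q : ℕ, q.Prime → q ∣ L₀ → q ∈ signSet V Q :=
    fun q hq h => (hmem q hq).mp (h.trans hL₀)
  obtain ⟨O'', j1, j2, j3, j4, j5, j6, j7, j8, j9, hjinj, h2O'', ρ, hchar, hdet, htate⟩ :=
    BadPrime.exists_newformTateRep (hrep L₀) hg 2 (signSet V Q) O h2O χg hχT iota h2S hLS
  letI : Algebra ℤ_[2] O'' := ((algebraMap O O'').comp (algebraMap ℤ_[2] O)).toAlgebra
  haveI : IsScalarTower ℤ_[2] O O'' := IsScalarTower.of_algebraMap_eq fun _ => rfl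
  haveI : Module.Finite ℤ_[2] O'' := Module.Finite.trans O O''
  haveI : IsLocalHom (algebraMap ℤ_[2] O'') := RingHom.isLocalHom_comp _ _
  -- `O''` inside `PadicAlgCl 2`
  letI : Algebra R O'' := ((algebraMap O O'').comp f.toRingHom).toAlgebra
  haveI : IsScalarTower ℤ_[2] R O'' := IsScalarTower.of_algebraMap_eq fun x => by
    show algebraMap O O'' (algebraMap ℤ_[2] O x) = algebraMap O O'' (f (algebraMap ℤ_[2] R x))
    rw [f.commutes]
  haveI : Module.Finite R O'' := Module.Finite.of_restrictScalars_finite ℤ_[2] R O''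
  haveI : FaithfulSMul R O'' :=
    (faithfulSMul_iff_algebraMap_injective R O'').mpr (hjinj.comp hfinj)
  haveI : FaithfulSMul R (PadicAlgCl 2) :=
    (faithfulSMul_iff_algebraMap_injective R (PadicAlgCl 2)).mpr Subtype.coe_injective
  let e : O'' →ₐ[R] PadicAlgCl 2 := IsAlgClosed.lift
  have heR : ∀ x : χg.range, e (algebraMap O O'' (iota x)) = c x := fun x =>
    (e.commutes (cR x)).trans rfl
  have hemax : ∀ y : O'', ‖e y‖ < 1 → y ∈ maximalIdeal O'' := by
    intro y hy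
    rw [IsLocalRing.mem_maximalIdeal, mem_nonunits_iff]
    intro hu
    obtain ⟨z, hz⟩ := hu.exists_right_inv
    have h1 : ‖e y‖ * ‖e z‖ = 1 := by rw [← norm_mul, ← map_mul, hz, map_one, norm_one]
    have h3 : ‖e z‖ ≤ 1 := norm_le_one_of_isIntegral_padic 2
      ((Algebra.IsIntegral.isIntegral (R := ℤ_[2]) z).map (e.restrictScalars ℤ_[2]))
    nlinarith [norm_nonneg (e y), norm_nonneg (e z)]
  -- the residual representation
  haveI : IsLocalHom (algebraMap O O'') := j9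
  let ψ : ResidueField ℤ_[2] →+* ResidueField O'' := ResidueField.map (algebraMap ℤ_[2] O'')
  have hres : ρ.residual.IsEquiv ((residualTwo V hΔ).baseChangeAlong ψ) := by
    suffices h : ((residualTwo V hΔ).baseChangeAlong ψ).IsEquiv ρ.residual by
      obtain ⟨E⟩ := h
      exact ⟨E.symm⟩
    refine Density.residual_isEquiv_of_frobenius _ _ (signSet V Q)
      (RT.isAbsolutelyIrreducible_baseChangeAlong ψ (residualTwo V hΔ) (hirr V hV))
      fun ℓ hℓ hℓS A hA σ hσ => ?_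
    have hℓL : ¬ ℓ ∣ L₀ := fun h => hℓS (hLS ℓ hℓ h)
    have hℓ2 : ℓ ≠ 2 := fun h => hℓS (h ▸ h2S)
    have hgood : V.IsGoodPrimeFor ℓ := fun h => hℓS (Finset.mem_union_left _
      (Nat.mem_primeFactors.mpr ⟨hℓ, Int.natCast_dvd.mp h, Int.natAbs_ne_zero.mpr hΔ⟩))
    have hℓS' : ℓ ∉ (↑(signSet V Q) : Set ℕ) := fun h => hℓS (Finset.mem_coe.mp h)
    have hℓaux : ¬ ℓ ∣ auxLevel V Q := fun h => hℓS ((hmem ℓ hℓ).mp h)
    obtain ⟨b, hb, hb𝔪⟩ := hcong ⟨⟨ℓ, hℓ⟩, hℓaux⟩
    have htr : residue O'' (algebraMap O O'' ((iota.comp χg.rangeRestrict)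
        (CuspForm.heckeAlgebra.T hℓ hℓL hℓS'))) = ((V.apOfModel ℓ : ℤ) : ResidueField O'') := by
      rw [← map_intCast (residue O''), ← sub_eq_zero, ← map_sub, residue_eq_zero_iff]
      refine hemax _ ?_
      rw [map_sub, RingHom.comp_apply, heR, map_intCast]
      have hb' : inc (χg.rangeRestrict (CuspForm.heckeAlgebra.T hℓ hℓL hℓS')) = b :=
        Subtype.ext ((hχT ℓ hℓ hℓL hℓS').trans hb.symm)
      show ‖ι (inc _) - _‖ < 1
      rw [hb', ← map_intCast ι, ← map_sub]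
      exact hι𝔪 _ hb𝔪
    rw [charpoly_residual_eq, hchar ℓ hℓ hℓL hℓS' A hA σ hσ, charpoly_baseChangeAlong_eq,
      show residualTwo V hΔ = (EC.tateRep (V.map (Int.castRingHom ℚ)) 2).residual from rfl,
      charpoly_residual_eq, BadPrime.tateRep_charpoly_frobenius V 2 hΔ hℓ hℓ2 hgood hA hσ]
    simp only [Polynomial.map_add, Polynomial.map_sub, Polynomial.map_mul, Polynomial.map_pow,
      Polynomial.map_X, Polynomial.map_C, htr, map_natCast, map_intCast, Polynomial.map_natCast,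
      Polynomial.map_intCast]
  have habs : ρ.residual.IsAbsolutelyIrreducible := by
    obtain ⟨E⟩ := hres
    exact Density.isAbsolutelyIrreducible_of_isEquiv ⟨E.symm⟩
      (RT.isAbsolutelyIrreducible_baseChangeAlong ψ (residualTwo V hΔ) (hirr V hV))
  -- unramified outside `(signSet V Q)`
  obtain ⟨φ₀, χ₀, hφ₀T, hker, hρ₀, htate₀⟩ := htate
  have hunr : ∀ q : ℕ, q.Prime → q ∉ (signSet V Q) → ρ.IsUnramifiedAt q := by
    intro q hq hqS
    obtain ⟨hK, hG, hF⟩ := hrep L₀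
    obtain ⟨ρ', hρ', hunr'⟩ := EichlerShimura.exists_galoisRepAdic_of_eigensystem L₀ 2 hK
      (hF 2 Nat.prime_two) hG O'' h2O'' χ₀
    obtain ⟨E⟩ := Density.adic_isEquiv_of_frobenius ρ ρ' (signSet V Q) habs fun ℓ hℓ hℓS A hA σ hσ => by
      have hℓL : ¬ ℓ ∣ L₀ := fun h => hℓS (hLS ℓ hℓ h)
      rw [hρ₀ ℓ hℓ hℓL (fun h => hℓS (h ▸ h2S)) A hA σ hσ,
        hρ' ℓ hℓ hℓL (fun h => hℓS (h ▸ h2S)) A hA σ hσ]
    exact Density.adic_isUnramifiedAt_of_isEquiv ⟨E.symm⟩
      (hunr' q hq (fun h => hqS (hLS q hq h)) fun h => hqS (h ▸ h2S))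
  -- the lines
  have hline : ∀ v, ∃ u : O'', u ^ 2 = 1 ∧ HasSignedLineAt ρ (pl.place v) (pl.frob v) u := by
    intro v
    by_cases hv : (v : ℕ) = 2
    · refine htwo V hV L₀ (hsq 2 Nat.prime_two) g hg O'' h2O'' ρ
        hdet ⟨φ₀, χ₀, hφ₀T, hker, hρ₀, htate₀⟩ ψ hres _ (hv ▸ (hover v).1) _ (hv ▸ (hover v).2)
        (hbar.frob_mem v) (hbar.frob_ne_one v)
    · have hvp := hprime v v.2
      refine exists_signedLine_of_newform hrep hg h2O'' ρ hdet
        ⟨φ₀, χ₀, hφ₀T, hker, hρ₀, htate₀⟩ hvp hv (hodd _ v.2 hv) (hsq _ hvp)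
        (fun M' _ _ hqM' _ => hgeo M' v hvp hv hqM') (hover v).1 (hbar.frob_mem v)
  obtain ⟨φ, hφ⟩ := exists_signedPoint pl hbar D ρ hdet hunr hline ψ hres
  refine ⟨(e.restrictScalars ℤ_[2]).comp φ, fun ℓ A hA σ hσ => ?_⟩
  obtain ⟨⟨ℓ, hℓ⟩, hℓaux⟩ := ℓ
  have hℓL : ¬ ℓ ∣ L₀ := fun h => hℓaux (h.trans hL₀)
  have hℓS' : ℓ ∉ (↑(signSet V Q) : Set ℕ) := fun h => hℓaux ((hmem ℓ hℓ).mpr (Finset.mem_coe.mp h))
  let x := χg.rangeRestrict (CuspForm.heckeAlgebra.T hℓ hℓL hℓS')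
  refine ⟨inc x, hχT ℓ hℓ hℓL hℓS', ?_⟩
  have htrρ : ρ.trace σ = algebraMap O O'' (iota x) := by
    have h := hchar ℓ hℓ hℓL hℓS' A hA σ hσ
    rw [BadPrime.charpoly_rank_two] at h
    have h1 := congrArg (fun P => Polynomial.coeff P 1) h
    simp at h1
    exact h1
  show e (φ (D.ρ.trace σ)) = ι (inc x)
  rw [hφ σ, htrρ, heR]
  rfl

/-- `SystemPoints`, from the geometric inputs. -/
theorem systemPoints_of (hrep : ∀ (N : ℕ) [NeZero N], HasEigenRep N)
    (hgeo : ∀ (M q : ℕ) [NeZero M] [NeZero q], q.Prime → q ≠ 2 → ¬ q ∣ M →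
      InertiaUnipotentTorsion M q ∧ FrobeniusSqTorsion M q)
    (hirr : ResidualIrreducible) (htwo : SignedLineAtTwo) : SystemPoints := by
  intro V hV n Q hn hQ 𝔪 hmax h2 pl hover hbar D
  obtain ⟨ι, hι, hι𝔪⟩ := exists_padicEmbedding 2 𝔪 hmax.ne_top (by exact_mod_cast h2)
  refine ⟨ι, hι, ?_⟩
  rintro a ⟨L₀, g, hL, hg, rfl, hcong⟩
  have haux : auxLevel V Q ≠ 0 := Finset.prod_ne_zero_iff.mpr fun p hp => by
    rcases Finset.mem_union.mp hp with h | h
    · exact (Nat.prime_of_mem_primeFactors h).ne_zero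
    · exact (hQ.aux p h).prime.ne_zero
  have hL₀ : L₀ ∣ auxLevel V Q := by
    rcases hL with h | h
    · rw [h]
    · exact h ▸ dvd_mul_left L₀ 2
  haveI : NeZero L₀ := ⟨ne_zero_of_dvd_ne_zero haux hL₀⟩
  refine exists_point_of_newform hrep hgeo hirr htwo hV hQ hover hbar D ι hι𝔪 hL₀
    (fun q hq hq2 => ?_) hg hcong
  have hqaux : q ∣ auxLevel V Q := Finset.dvd_prod_of_mem _ hq
  have hqp : q.Prime := by
    rcases Finset.mem_union.mp hq with h | h
    · exact Nat.prime_of_mem_primeFactors h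
    · exact (hQ.aux q h).prime
  rcases hL with h | h
  · rwa [h]
  · rw [← h] at hqaux
    exact (hqp.dvd_mul.mp hqaux).resolve_left
      fun h2 => hq2 ((Nat.prime_dvd_prime_iff_eq hqp Nat.prime_two).mp h2)

end Fermat.Agent.TwoAdic
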