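import Fermat.Agent.TwoAdic.Switch.Galois.Places
import Fermat.Agent.TwoAdic.Universal.Points
import Fermat.Agent.EC.Frob.Trace
import Fermat.Agent.Deformation.Matrix
import Fermat.Agent.Deformation.Schur
import Fermat.Agent.RT.LocalAtP.Conditions

/-!
# The switched curve modulo `2ⁿ` as a point of the signed-line ring
-/

set_option autoImplicit false

noncomputable section

open Matrix WeierstrassCurve IsLocalRing
open scoped WeierstrassCurve.Affine TensorProduct

namespace Fermat.Agent.TwoAdic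

local notation "Qb" => AlgebraicClosure ℚ
local notation "Γℚ" => (AlgebraicClosure ℚ ≃ₐ[ℚ] AlgebraicClosure ℚ)

variable {V : WeierstrassCurve ℤ} [(V.map (Int.castRingHom ℚ)).IsElliptic]

local notation "ρT" => GaloisRepAdic.ρ (EC.tateRep (V.map (Int.castRingHom ℚ)) 2)

/-- A decomposition line at a bad prime on which every element acts on the quotient by a sign. -/
theorem exists_signed_basis_bad {q : ℕ} (hq : q.Prime) (hΔ : V.Δ ≠ 0) (hbad : (q : ℤ) ∣ V.Δ)
    (hc4 : ¬ (q : ℤ) ∣ V.c₄) (A : ValuationSubring Qb) (hA : A.LiesOverPrime q) :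
    ∃ b : Module.Basis (Fin 2) ℤ_[2] (EC.tateRep (V.map (Int.castRingHom ℚ)) 2).V,
      (∀ σ ∈ A.decompositionSubgroup ℚ, LinearMap.toMatrix b b (ρT σ) 1 0 = 0) ∧
      (∀ σ ∈ A.inertiaSubgroupIn ℚ, LinearMap.toMatrix b b (ρT σ) 1 1 = 1) ∧
      ∀ σ ∈ A.decompositionSubgroup ℚ, LinearMap.toMatrix b b (ρT σ) 1 1 ^ 2 = 1 := by
  obtain ⟨b, hD, hI, hchar⟩ := EC.exists_tateLine V 2 hq hΔ hbad hc4 A hA
  refine ⟨b, fun σ hσ => ?_, fun σ hσ => ?_, fun σ hσ => ?_⟩
  · rw [LinearMap.toMatrix_apply]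
    exact (mem_span_first_iff b _).1 (hD σ hσ _ (Submodule.mem_span_singleton_self _))
  · have h := (mem_span_first_iff b _).1 (hI σ hσ (b 1))
    rw [map_sub, Finsupp.sub_apply, sub_eq_zero] at h
    rw [LinearMap.toMatrix_apply, h]
    simp
  · obtain ⟨-, z, hzz, -, hz, -⟩ := hchar σ hσ
    have h := (mem_span_first_iff b _).1 (hz (b 1))
    rw [map_sub, Finsupp.sub_apply, sub_eq_zero, map_smul, Finsupp.smul_apply] at h
    rw [LinearMap.toMatrix_apply, h, sq]
    simpa using hzz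

/-- The reduction of the Tate module along `f` reduces to the residual representation. -/
theorem residual_baseChangeAlong_isEquiv {B : Type} [CommRing B] [IsLocalRing B] [Algebra ℤ_[2] B]
    [hB : IsLocalHom (algebraMap ℤ_[2] B)] :
    ((EC.tateRep (V.map (Int.castRingHom ℚ)) 2).baseChangeAlong (algebraMap ℤ_[2] B) hB).residual.IsEquiv
      ((EC.tateRep (V.map (Int.castRingHom ℚ)) 2).residual.baseChangeAlong
        (ResidueField.map (algebraMap ℤ_[2] B))) := by
  let b := EC.tateRepBasis (V.map (Int.castRingHom ℚ)) 2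
  obtain ⟨b', hb'⟩ := Deformation.exists_basis_baseChangeAlong
    (EC.tateRep (V.map (Int.castRingHom ℚ)) 2) b (algebraMap ℤ_[2] B) hB
  refine Deformation.residual_isEquiv_of_map_eq _ (residualBasis b) _ b' _ ?_
  refine MonoidHom.ext fun σ => ?_
  rw [hb', Deformation.mapRep_apply, Deformation.mapRep_apply, Deformation.mapRep_apply,
    Deformation.matOf_apply, Deformation.matOf_apply, toMatrix_residual, Matrix.map_map,
    Matrix.map_map]
  rfl

omit [(V.map (Int.castRingHom ℚ)).IsElliptic] in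
/-- **`V` modulo `2ⁿ` is a point of the signed-line ring.** -/
theorem curvePoint : CurvePoint := by
  intro V hV n Q hn hQ pl hover _ D
  have := EC.isElliptic_map_rat hV.delta_ne_zero
  have hf : Function.Surjective (PadicInt.toZModPow (p := 2) n) := ZMod.ringHom_surjective _
  have : Fact (1 < 2 ^ n) := ⟨Nat.one_lt_two_pow (by omega)⟩
  have : NeZero (2 ^ n) := ⟨pow_ne_zero n two_ne_zero⟩
  have : IsLocalRing (ZMod (2 ^ n)) := IsLocalRing.of_surjective' _ hf
  have : IsAdicComplete (maximalIdeal (ZMod (2 ^ n))) (ZMod (2 ^ n)) := by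
    obtain ⟨k, hk⟩ := IsArtinianRing.isNilpotent_jacobson_bot (R := ZMod (2 ^ n))
    rw [IsLocalRing.jacobson_eq_maximalIdeal ⊥ bot_ne_top] at hk
    exact Deformation.isAdicComplete_of_pow_eq_bot hk
  let : Algebra ℤ_[2] (ZMod (2 ^ n)) := (PadicInt.toZModPow (p := 2) n).toAlgebra
  have hloc : IsLocalHom (algebraMap ℤ_[2] (ZMod (2 ^ n))) := IsLocalHom.of_surjective _ hf
  set f := algebraMap ℤ_[2] (ZMod (2 ^ n)) with hfdef
  have h2n : f ((2 : ℤ_[2]) ^ n) = 0 := by
    rw [map_pow, map_ofNat]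
    exact_mod_cast ZMod.natCast_self (2 ^ n)
  set ρA := (EC.tateRep (V.map (Int.castRingHom ℚ)) 2).baseChangeAlong f hloc with hρA
  have hID : ∀ A : ValuationSubring Qb, A.inertiaSubgroupIn ℚ ≤ A.decompositionSubgroup ℚ :=
    fun A σ hσ => EC.Mult.mem_decompositionSubgroup_of_mem_inertia hσ
  have key : ∀ v : signSet V Q, ∃ u : ZMod (2 ^ n),
      u ^ 2 = 1 ∧ HasSignedLineAt ρA (pl.place v) (pl.frob v) u := by
    intro v
    obtain ⟨hA, hF⟩ := hover v
    rcases Finset.mem_union.mp v.2 with h | h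
    · obtain ⟨hq, hd⟩ := (mem_badPrimes_iff hV.delta_ne_zero).mp h
      obtain ⟨b, h10, h11, hsq⟩ := exists_signed_basis_bad hq hV.delta_ne_zero hd
        (hV.semistable _ hq hd) (pl.place v) hA
      refine ⟨f (LinearMap.toMatrix b b
        ((EC.tateRep (V.map (Int.castRingHom ℚ)) 2).ρ (pl.frob v)) 1 1),
        by rw [← map_pow, hsq _ hF.mem_decompositionSubgroup, map_one],
        hasSignedLineAt_baseChangeAlong _ f hloc b (fun σ hσ => by rw [h10 σ hσ, map_zero]) (hID _)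
          (fun σ hσ => by rw [h11 σ hσ, map_one]) hF.mem_decompositionSubgroup rfl⟩
    · have hq := hQ.aux _ h
      obtain ⟨g, hg⟩ := hq.frob _ hA _ hF
      let b₀ := EC.tateRepBasis (V.map (Int.castRingHom ℚ)) 2
      have hline := hasSignedLineAt_of_frobenius_conj hV.delta_neg hq.prime hA hF b₀
        (fun τ hτ => levelHom_eq_one_of_good b₀ n hq.prime hq.odd hq.good hA hτ)
        ⟨g, levelHom_eq_of_galoisRepModuleEnd_eq b₀ hg⟩ f hloc h2n 1 (mul_one 1)
      rw [map_one] at hline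
      exact ⟨1, one_pow 2, hline⟩
  choose u hu hline using key
  have hunr : ∀ q : ℕ, q.Prime → q ∉ signSet V Q → ρA.IsUnramifiedAt q := by
    intro q hq hqS A hA σ hσ
    have hgood : V.IsGoodPrimeFor q := fun hd =>
      hqS (Finset.mem_union_left _ ((mem_badPrimes_iff hV.delta_ne_zero).mpr ⟨hq, hd⟩))
    show ((EC.tateRep (V.map (Int.castRingHom ℚ)) 2).ρ σ).baseChange _ = 1
    rw [EC.tateRep_isUnramifiedAt hV.delta_ne_zero 2 hq hgood (fun h => hgood (h ▸ hV.two_dvd))
      A hA σ hσ]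
    exact LinearMap.baseChange_one _ _
  have hres : Function.Surjective (residue (ZMod (2 ^ n)) ∘ algebraMap ℤ_[2] (ZMod (2 ^ n))) :=
    residue_surjective.comp hf
  let φ := D.classify hres ρA u
    ⟨RT.detIsCyclotomic_baseChangeAlong f hloc (EC.tateRep_detIsCyclotomic hV.delta_ne_zero 2),
      hunr, hu, hline⟩ residual_baseChangeAlong_isEquiv
  refine ⟨φ, fun ℓ A hA σ hσ => ?_⟩
  have hnotS : (ℓ.1 : ℕ) ∉ signSet V Q := fun h =>
    ℓ.2 (Finset.dvd_prod_of_mem _ h)
  have hgood : V.IsGoodPrimeFor (ℓ.1 : ℕ) := fun hd =>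
    hnotS (Finset.mem_union_left _ ((mem_badPrimes_iff hV.delta_ne_zero).mpr ⟨ℓ.1.2, hd⟩))
  have hl2 : (ℓ.1 : ℕ) ≠ 2 := fun h => hgood (h ▸ hV.two_dvd)
  have htr : (EC.tateRep (V.map (Int.castRingHom ℚ)) 2).trace σ =
      ((V.apOfModel (ℓ.1 : ℕ) : ℤ) : ℤ_[2]) := by
    refine (EC.tateRep_trace_eq_iff _ 2 σ _).mpr fun k => ?_
    rcases eq_or_ne k 0 with rfl | hk
    · have : Subsingleton (ZMod (2 ^ 0)) := by rw [pow_zero]; infer_instance
      exact Subsingleton.elim _ _
    · rw [map_intCast]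
      exact EC.galoisTrace_frobenius V ℓ.1.2 hA hgood hσ (Nat.one_lt_two_pow hk) fun h =>
        hl2 ((Nat.prime_dvd_prime_iff_eq ℓ.1.2 Nat.prime_two).mp (ℓ.1.2.dvd_of_dvd_pow h))
  refine (SignedRingData.classify_trace D hres ρA u _ _ σ).trans ?_
  have h1 : ρA.trace σ = f ((EC.tateRep (V.map (Int.castRingHom ℚ)) 2).trace σ) := by
    let : Algebra ℤ_[2] (ZMod (2 ^ n)) := f.toAlgebra
    exact LinearMap.trace_baseChange _ (ZMod (2 ^ n))
  rw [h1, htr, map_intCast]

end Fermat.Agent.TwoAdic
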