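import Fermat.Agent.TwoAdic.Points.Systems
import Fermat.Agent.TwoAdic.Switch.Galois.Places
import Fermat.Agent.BadPrime.Reps

/-!
# `SystemPoints` from the line at `2`
-/

set_option autoImplicit false

noncomputable section

namespace Fermat.Agent.TwoAdic

/-- The systems of congruent newforms are points of the signed-line ring, given the line at `2`. -/
theorem systemPoints_of_signedLineAtTwo (htwo : SignedLineAtTwo) : SystemPoints :=
  systemPoints_of BadPrime.hasEigenRep_modular
    (fun M q _ _ hq _ hqM =>
      ⟨BadPrime.inertiaUnipotentTorsion_all M q hq hqM, BadPrime.frobeniusSqTorsion_all M q hq hqM⟩)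
    residualIrreducible htwo

/-- The line at `2` may live over an extension. -/
theorem systemPoints_of_signedLineAtTwoExt (htwo : SignedLineAtTwoExt) : SystemPoints :=
  systemPoints_of_signedLineAtTwo (signedLineAtTwo_of_ext htwo)

end Fermat.Agent.TwoAdic
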