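import Fermat.Agent.TwoAdic.Points.LineTools
import Fermat.Agent.RT.LocalQ.Rep

/-!
# Points of the signed deformation ring from representations over a larger ring

A representation over `O` of signed type whose reduction is `ρbar` descends to
`residueSubring 2 O`, hence is a point of the universal ring with signed lines.
-/

set_option autoImplicit false

noncomputable section

open IsLocalRing Module

namespace Fermat.Agent.TwoAdic

open Deformation (Mat IsCont matOf mapRep repOf stdBasis)

local notation "Qb" => AlgebraicClosure ℚ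
local notation "Γℚ" => (AlgebraicClosure ℚ ≃ₐ[ℚ] AlgebraicClosure ℚ)

variable (p : ℕ) [Fact p.Prime] (O : Type) [CommRing O] [IsLocalRing O] [Algebra ℤ_[p] O]
  [IsLocalHom (algebraMap ℤ_[p] O)]

/-- Powers of the maximal ideal of the subring are those of the big ring. -/
theorem exists_mem_pow_residueSubring {n : ℕ} :
    ∀ {x : O}, x ∈ maximalIdeal O ^ (n + 1) →
      ∃ y ∈ maximalIdeal (residueSubring p O) ^ (n + 1), (y : O) = x := by
  induction n with
  | zero =>
    intro x hx
    rw [zero_add, pow_one] at hx ⊢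
    exact ⟨⟨x, mem_residueSubring_of_mem_maximalIdeal p O hx⟩,
      (mem_maximalIdeal_residueSubring p O).mpr hx, rfl⟩
  | succ n ih =>
    intro x hx
    rw [pow_succ] at hx ⊢
    refine Submodule.mul_induction_on hx (fun a ha b hb => ?_) fun a b ha hb => ?_
    · obtain ⟨a', ha', rfl⟩ := ih ha
      exact ⟨a' * ⟨b, mem_residueSubring_of_mem_maximalIdeal p O hb⟩,
        Ideal.mul_mem_mul ha' ((mem_maximalIdeal_residueSubring p O).mpr hb), rfl⟩
    · obtain ⟨a', ha', rfl⟩ := ha
      obtain ⟨b', hb', rfl⟩ := hb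
      exact ⟨a' + b', Ideal.add_mem _ ha' hb', rfl⟩

/-- A matrix representation over the subring is continuous when it is so over the big ring. -/
theorem isCont_of_val {r : Γℚ →* Mat (residueSubring p O)}
    (h : IsCont (mapRep (residueSubring p O).val.toRingHom r)) : IsCont r := by
  intro n
  obtain ⟨L, hL, h1⟩ := h n
  refine ⟨L, hL, fun σ hσ i j => ?_⟩
  cases n with
  | zero => simp
  | succ n =>
    obtain ⟨y, hy, hyx⟩ := exists_mem_pow_residueSubring p O (h1 σ hσ i j)
    have e : ((r σ - 1) i j : O) =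
        (mapRep (residueSubring p O).val.toRingHom r σ - 1) i j := by
      by_cases hij : i = j <;> simp [hij]
    rwa [show (r σ - 1) i j = y from Subtype.ext (e.trans hyx.symm)]

omit [IsLocalHom (algebraMap ℤ_[p] O)] in
/-- Ring maps out of the residue field of `ℤ_p` are determined uniquely. -/
theorem residueField_padicInt_hom_ext {R : Type*} [CommRing R]
    (f g : ResidueField ℤ_[p] →+* R) : f = g := by
  refine RingHom.ext fun x => ?_
  obtain ⟨z, rfl⟩ := residue_surjective x
  have h : residue ℤ_[p] z = (PadicInt.zmodRepr z : ResidueField ℤ_[p]) := by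
    rw [← map_natCast (residue ℤ_[p]), ← sub_eq_zero, ← map_sub, residue_eq_zero_iff]
    exact (PadicInt.zmodRepr_spec z).2
  rw [h, map_natCast, map_natCast]

omit [IsLocalHom (algebraMap ℤ_[p] O)] [IsLocalRing O] in
theorem map_residue_eq_one_iff {k : Type} [Field k] {ρ : ResidualGaloisRep k}
    (b : Basis (Fin 2) k ρ.V) {R : Type*} [Field R] (ψ : k →+* R) (σ : Γℚ) :
    (matOf ρ.ρ b σ).map ψ = 1 ↔ ρ.ρ σ = 1 := by
  rw [← RT.matOf_eq_one_iff ρ.ρ b, ← RingHom.mapMatrix_apply, ← map_one ψ.mapMatrix]
  exact (Matrix.map_injective ψ.injective).eq_iff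

end Fermat.Agent.TwoAdic

namespace Fermat.Agent.TwoAdic

open Deformation (Mat IsCont matOf mapRep repOf stdBasis)

variable {O : Type} [CommRing O] [IsLocalRing O] [Algebra ℤ_[2] O]
  [IsLocalHom (algebraMap ℤ_[2] O)] [Module.Finite ℤ_[2] O] [IsHausdorff (maximalIdeal O) O]
  {S : Finset ℕ}

/-- Inertia lies in decomposition. -/
theorem mem_decompositionSubgroup_of_mem_inertia {K L : Type*} [Field K] [Field L] [Algebra K L]
    {A : ValuationSubring L} {σ : L ≃ₐ[K] L} (h : σ ∈ A.inertiaSubgroupIn K) :
    σ ∈ A.decompositionSubgroup K := by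
  obtain ⟨τ, -, rfl⟩ := h
  exact τ.2

/-- A representation over `O` of signed type reducing to `ρbar` is a point of the universal
ring with signed lines. -/
theorem exists_signedPoint {ρbar : ResidualGaloisRep (ResidueField ℤ_[2])}
    (pl : SignedPlaces S) (hbar : IsResidualSigned ρbar pl) (D : SignedRingData ρbar pl)
    (ρ : GaloisRepAdic O) (hdet : ρ.DetIsCyclotomic 2)
    (hunr : ∀ q : ℕ, q.Prime → q ∉ S → ρ.IsUnramifiedAt q)
    (hline : ∀ v, ∃ u : O, u ^ 2 = 1 ∧ HasSignedLineAt ρ (pl.place v) (pl.frob v) u)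
    (ψ : ResidueField ℤ_[2] →+* ResidueField O)
    (hres : ρ.residual.IsEquiv (ρbar.baseChangeAlong ψ)) :
    ∃ φ : D.R →ₐ[ℤ_[2]] O, ∀ σ, φ (D.ρ.trace σ) = ρ.trace σ := by
  classical
  set bbar := (Module.finBasis (ResidueField ℤ_[2]) ρbar.V).reindex (finCongr ρbar.finrank_eq)
  obtain ⟨b, hb⟩ := Deformation.exists_lift_basis ρbar bbar ρ ψ hres
  set R : _ →* Mat O := matOf ρ.ρ b with hR
  set rbar := matOf ρbar.ρ bbar with hrbar
  have hmem : ∀ σ i j, R σ i j ∈ residueSubring 2 O := by
    intro σ i j
    obtain ⟨z, hz⟩ := residue_surjective (rbar σ i j)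
    refine ⟨(PadicInt.zmodRepr z : ℤ), ?_⟩
    have h1 := congrFun (congrFun (DFunLike.congr_fun hb σ) i) j
    have h2 : rbar σ i j = (PadicInt.zmodRepr z : ResidueField ℤ_[2]) := by
      rw [← hz, ← map_natCast (residue ℤ_[2]), ← sub_eq_zero, ← map_sub, residue_eq_zero_iff]
      exact (PadicInt.zmodRepr_spec z).2
    rw [← residue_eq_zero_iff, map_sub, map_intCast, Int.cast_natCast, sub_eq_zero]
    calc residue O (R σ i j) = ψ (rbar σ i j) := h1
      _ = _ := by rw [h2, map_natCast]
  let R₁ : _ →* Mat (residueSubring 2 O) :=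
    { toFun := fun σ => Matrix.of fun i j => ⟨R σ i j, hmem σ i j⟩
      map_one' := by
        ext i j
        show R 1 i j = _
        rw [map_one, Matrix.one_apply, Matrix.one_apply]
        split <;> rfl
      map_mul' := fun a c => by
        ext i j
        show R (a * c) i j = _
        rw [map_mul, Matrix.mul_apply, Matrix.mul_apply]
        simp }
  have hval : ∀ σ, (R₁ σ).map (residueSubring 2 O).val = R σ := fun σ => rfl
  have hcont : IsCont R₁ := isCont_of_val 2 O (Deformation.isCont_matOf ρ b)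
  have hloc : IsLocalHom (residueSubring 2 O).val.toRingHom :=
    ⟨fun x hx => (isUnit_residueSubring_iff 2 O x).mpr hx⟩
  let jk : ResidueField (residueSubring 2 O) →+* ResidueField O :=
    ResidueField.map (residueSubring 2 O).val.toRingHom
  have hjk : ∀ x, jk (residue _ x) = residue O (x : O) := fun _ => rfl
  have hres₁ : ∀ σ, (R₁ σ).map (residue (residueSubring 2 O)) =
      (rbar σ).map (ResidueField.map (algebraMap ℤ_[2] (residueSubring 2 O))) := by
    intro σ
    refine Matrix.ext fun i j => jk.injective ?_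
    simp only [Matrix.map_apply]
    rw [hjk, ← RingHom.comp_apply jk, residueField_padicInt_hom_ext 2 (jk.comp _) ψ]
    exact congrFun (congrFun (DFunLike.congr_fun hb σ) i) j
  -- the frames
  have hframe : ∀ v, ∃ u : residueSubring 2 O, u ^ 2 = 1 ∧
      HasSignedLineAt (repOf R₁ hcont) (pl.place v) (pl.frob v) u := by
    intro v
    obtain ⟨u, hu, hl⟩ := hline v
    obtain ⟨s, c, hfr⟩ := exists_frame_of_hasSignedLineAt b (hbar.frob_mem v)
      (fun σ hσ => mem_decompositionSubgroup_of_mem_inertia hσ) hl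
    have hne : (R₁ (pl.frob v)).map (residue (residueSubring 2 O)) ≠ 1 := fun h => by
      rw [hres₁] at h
      exact hbar.frob_ne_one v ((map_residue_eq_one_iff bbar _ _).mp h)
    have hsq : ((R₁ (pl.frob v)).map (residue (residueSubring 2 O)) - 1) ^ 2 = 0 := by
      have h1 : rbar (pl.frob v) * rbar (pl.frob v) = 1 := by
        rw [← map_mul, hrbar]
        exact (RT.matOf_eq_one_iff ρbar.ρ bbar _).mpr (by rw [map_mul, hbar.frob_sq v])
      set M := (R₁ (pl.frob v)).map (residue (residueSubring 2 O)) with hM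
      have h2 : M * M = 1 := by
        rw [hM, hres₁, ← Matrix.map_mul, h1, Matrix.map_one _ (map_zero _) (map_one _)]
      have h4 : (2 : ResidueField (residueSubring 2 O)) = 0 := by
        rw [← map_ofNat (residue (residueSubring 2 O)) 2, residue_eq_zero_iff,
          mem_maximalIdeal_residueSubring]
        have := map_nonunit (algebraMap ℤ_[2] O) ((2 : ℕ) : ℤ_[2]) PadicInt.p_nonunit
        rw [map_natCast] at this
        exact_mod_cast this
      have h5 : (M - 1) ^ 2 = (2 : ResidueField (residueSubring 2 O)) • (1 - M) := by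
        rw [pow_two, sub_mul, mul_sub, h2, two_smul]
        simp only [mul_one, one_mul]
        abel
      rw [h5, h4, zero_smul]
    have hc : c ∈ residueSubring 2 O :=
      lineFrame_mem_residueSubring 2 O hne hsq (by rw [hval]; exact hfr.frob_upper)
    have hmap : ∀ σ i j, ((inFrame s (⟨c, hc⟩ : residueSubring 2 O) (R₁ σ) i j :
        residueSubring 2 O) : O) = inFrame s c (R σ) i j := fun σ i j =>
      congrFun (congrFun (inFrame_map (residueSubring 2 O).val.toRingHom s ⟨c, hc⟩ (R₁ σ)) i) j
    let u₁ : residueSubring 2 O := inFrame s ⟨c, hc⟩ (R₁ (pl.frob v)) 1 1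
    refine ⟨u₁, Subtype.ext ?_, hasSignedLineAt_of_frame (stdBasis R₁ hcont) (s := s) (c := ⟨c, hc⟩)
      ⟨fun σ hσ => ?_, fun σ hσ => ?_, fun σ hσ => ?_, ?_, ?_⟩⟩
    · show ((u₁ : residueSubring 2 O) : O) ^ 2 = 1
      rw [hmap, hfr.frob, hu]
    all_goals rw [Deformation.matOf_repOf]
    · exact Subtype.ext ((hmap _ _ _).trans (hfr.upper σ hσ))
    · exact Subtype.ext ((hmap _ _ _).trans (hfr.inertia σ hσ))
    · exact Subtype.ext ((hmap _ _ _).trans (hfr.inertia_upper σ hσ))
    exact Subtype.ext ((hmap _ _ _).trans hfr.frob_upper)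
  choose u hu hl using hframe
  have htype : IsSignedType pl (repOf R₁ hcont) u := by
    refine ⟨⟨?_, ?_⟩, ?_, hu, hl⟩
    · rw [mem_maximalIdeal_residueSubring]
      exact hdet.1
    · intro n σ a ha
      have hd : LinearMap.det ((repOf R₁ hcont).ρ σ) = algebraMap ℤ_[2] _
          (cyclotomicCharacter (AlgebraicClosure ℚ) 2 σ.toRingEquiv : ℤ_[2]ˣ) := by
        rw [← LinearMap.det_toMatrix (stdBasis R₁ hcont), ← Deformation.matOf_apply,
          Deformation.matOf_repOf]
        refine Subtype.ext ?_
        show (residueSubring 2 O).val.toRingHom (R₁ σ).det = _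
        rw [RingHom.map_det]
        exact (LinearMap.det_toMatrix b (ρ.ρ σ)).trans (det_eq_cyclotomicCharacter hdet σ)
      rw [hd]
      have := Ideal.mem_map_of_mem (algebraMap ℤ_[2] (residueSubring 2 O))
        (cyclotomicCharacter_sub_natCast_mem σ n a ha)
      rwa [Ideal.map_span, Set.image_singleton, map_natCast, map_sub, map_natCast] at this
    · intro q hq hqS P hP σ hσ
      rw [← RT.matOf_eq_one_iff _ (stdBasis R₁ hcont), Deformation.matOf_repOf]
      refine Matrix.map_injective (f := (residueSubring 2 O).val) Subtype.coe_injective ?_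
      show (R₁ σ).map (residueSubring 2 O).val =
        (1 : Mat (residueSubring 2 O)).map (residueSubring 2 O).val
      rw [hval, Matrix.map_one _ (map_zero _) (map_one _), hR, RT.matOf_eq_one_iff]
      exact hunr q hq hqS P hP σ hσ
  have hsurj : Function.Surjective (residue (residueSubring 2 O) ∘
      algebraMap ℤ_[2] (residueSubring 2 O)) := fun x => by
    obtain ⟨n, rfl⟩ := residue_residueSubring_eq_intCast 2 O x
    exact ⟨n, by simp⟩
  have hequiv : (repOf R₁ hcont).residual.IsEquiv
      (ρbar.baseChangeAlong (ResidueField.map (algebraMap ℤ_[2] (residueSubring 2 O)))) :=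
    Deformation.residual_isEquiv_of_map_eq ρbar bbar _ (stdBasis R₁ hcont) _ (by
      rw [Deformation.matOf_repOf]
      exact MonoidHom.ext hres₁)
  obtain ⟨φ, ⟨hφ, he, -⟩, -⟩ := D.universal _ hsurj _ u htype hequiv
  refine ⟨(residueSubring 2 O).val.comp φ, fun σ => ?_⟩
  set bD := Deformation.someBasis D.ρ
  obtain ⟨b', hb'⟩ := Deformation.exists_basis_baseChangeAlong (B := residueSubring 2 O) D.ρ bD _ hφ
  obtain ⟨w, hw⟩ := Deformation.exists_conj_of_isEquiv he b' (stdBasis R₁ hcont)
  have h1 := congrArg Matrix.trace (show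
    (w : Mat (residueSubring 2 O)) * matOf (D.ρ.baseChangeAlong _ hφ).ρ b' σ *
      ((w⁻¹ : (Mat (residueSubring 2 O))ˣ) : Mat (residueSubring 2 O)) = R₁ σ by
    rw [hw, Deformation.matOf_repOf, mul_assoc, Units.mul_inv, mul_one])
  rw [Matrix.trace_units_conj, hb'] at h1
  show ((φ (LinearMap.trace D.R D.ρ.V (D.ρ.ρ σ)) : residueSubring 2 O) : O) =
    LinearMap.trace O ρ.V (ρ.ρ σ)
  rw [LinearMap.trace_eq_matrix_trace D.R bD, LinearMap.trace_eq_matrix_trace O b,
    ← Deformation.matOf_apply, ← Deformation.matOf_apply, ← hR, ← hval σ]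
  rw [Matrix.trace_fin_two, Matrix.trace_fin_two] at h1 ⊢
  simp only [Matrix.map_apply]
  rw [map_add φ]
  exact congrArg Subtype.val h1

end Fermat.Agent.TwoAdic
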