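import Fermat.Agent.RT.LocalQ.Adic
import Fermat.Agent.TwoAdic.ResidueSubring
import Mathlib.RingTheory.DiscreteValuationRing.Basic
import Mathlib.RingTheory.Valuation.ValuationRing
import Mathlib.LinearAlgebra.Matrix.Charpoly.Coeff
import Mathlib.LinearAlgebra.Matrix.ToLinearEquiv

/-!
# Stable lines with sign quotient at a prime of multiplicative type

For a continuous rank two representation over a discrete valuation ring, unipotent on inertia at
`q ≠ p`, whose Frobenius at `q` has characteristic polynomial `(X ∓ 1)(X ∓ q)`, there is a frame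
in which the decomposition group is upper triangular with lower right entry a sign, trivial on
inertia.
-/

set_option autoImplicit false

noncomputable section

open IsLocalRing Polynomial

namespace Fermat.Agent.TwoAdic

open Deformation (Mat IsCont)
open RT (TamePair IsResTame)

local notation "Qb" => AlgebraicClosure ℚ
local notation "Γℚ" => (AlgebraicClosure ℚ ≃ₐ[ℚ] AlgebraicClosure ℚ)

section Frames

variable {A : Type} [CommRing A]

/-- The two standard frames attached to a primitive vector. -/
def lineFrame (s : Bool) (c : A) : Mat A :=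
  bif s then !![1, 0; c, 1] else !![c, 1; 1, 0]

/-- The inverse of `lineFrame`. -/
def lineFrameInv (s : Bool) (c : A) : Mat A :=
  bif s then !![1, 0; -c, 1] else !![0, 1; 1, -c]

theorem lineFrameInv_mul (s : Bool) (c : A) : lineFrameInv s c * lineFrame s c = 1 := by
  cases s <;> simp [lineFrame, lineFrameInv, Matrix.one_fin_two]

theorem lineFrame_mul_inv (s : Bool) (c : A) : lineFrame s c * lineFrameInv s c = 1 := by
  cases s <;> simp [lineFrame, lineFrameInv, Matrix.one_fin_two]

theorem lineFrame_map {B : Type} [CommRing B] (φ : A →+* B) (s : Bool) (c : A) :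
    (lineFrame s c).map φ = lineFrame s (φ c) := by
  cases s <;> ext i j <;> fin_cases i <;> fin_cases j <;> simp [lineFrame]

theorem lineFrameInv_map {B : Type} [CommRing B] (φ : A →+* B) (s : Bool) (c : A) :
    (lineFrameInv s c).map φ = lineFrameInv s (φ c) := by
  cases s <;> ext i j <;> fin_cases i <;> fin_cases j <;> simp [lineFrameInv]

/-- The conjugate of `M` into the frame `(s, c)`. -/
def inFrame (s : Bool) (c : A) (M : Mat A) : Mat A :=
  lineFrameInv s c * M * lineFrame s c

theorem inFrame_mul (s : Bool) (c : A) (M N : Mat A) :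
    inFrame s c (M * N) = inFrame s c M * inFrame s c N := by
  simp only [inFrame, Matrix.mul_assoc]
  rw [← Matrix.mul_assoc (lineFrame s c) (lineFrameInv s c), lineFrame_mul_inv, Matrix.one_mul]

theorem inFrame_one (s : Bool) (c : A) : inFrame s c 1 = 1 := by
  rw [inFrame, Matrix.mul_one, lineFrameInv_mul]

theorem inFrame_pow (s : Bool) (c : A) (M : Mat A) (n : ℕ) :
    inFrame s c (M ^ n) = inFrame s c M ^ n := by
  induction n with
  | zero => rw [pow_zero, pow_zero, inFrame_one]
  | succ n ih => rw [pow_succ, pow_succ, inFrame_mul, ih]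

theorem inFrame_map {B : Type} [CommRing B] (φ : A →+* B) (s : Bool) (c : A) (M : Mat A) :
    (inFrame s c M).map φ = inFrame s (φ c) (M.map φ) := by
  rw [inFrame, inFrame, Matrix.map_mul, Matrix.map_mul, lineFrameInv_map, lineFrame_map]

theorem trace_inFrame (s : Bool) (c : A) (M : Mat A) : (inFrame s c M).trace = M.trace := by
  rw [inFrame, Matrix.trace_mul_cycle, lineFrame_mul_inv, Matrix.one_mul]

theorem det_inFrame (s : Bool) (c : A) (M : Mat A) : (inFrame s c M).det = M.det := by
  have h := congrArg Matrix.det (lineFrame_mul_inv s c)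
  rw [Matrix.det_mul, Matrix.det_one] at h
  rw [inFrame, Matrix.det_mul, Matrix.det_mul]
  linear_combination M.det * h

/-- A singular matrix over a valuation ring kills the first vector of some standard frame. -/
theorem exists_frame_kills [IsDomain A] [ValuationRing A] {M : Mat A} (h : M.det = 0) :
    ∃ (s : Bool) (c : A), ∀ i, (M * lineFrame s c) i 0 = 0 := by
  obtain ⟨w, hw0, hw⟩ := Matrix.exists_mulVec_eq_zero_iff.mpr h
  have key : ∀ i, M i 0 * w 0 + M i 1 * w 1 = 0 := fun i => by
    simpa [Matrix.mulVec, dotProduct, Fin.sum_univ_two] using congrFun hw i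
  rcases (PreValuationRing.iff_dvd_total.mp inferInstance).total (w 0) (w 1) with ⟨c, hc⟩ | ⟨c, hc⟩
  · refine ⟨true, c, fun i => ?_⟩
    have h0 : w 0 ≠ 0 := fun h0 => hw0 (funext fun j => by fin_cases j <;> simp [hc, h0])
    refine mul_left_cancel₀ h0 ?_
    simp only [lineFrame, cond_true, Matrix.mul_apply, Fin.sum_univ_two, Matrix.of_apply,
      Matrix.cons_val', Matrix.cons_val_zero, Matrix.cons_val_one, Matrix.empty_val',
      Matrix.cons_val_fin_one, mul_one, mul_zero]
    linear_combination key i - M i 1 * hc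
  · refine ⟨false, c, fun i => ?_⟩
    have h1 : w 1 ≠ 0 := fun h1 => hw0 (funext fun j => by fin_cases j <;> simp [hc, h1])
    refine mul_left_cancel₀ h1 ?_
    simp only [lineFrame, cond_false, Matrix.mul_apply, Fin.sum_univ_two, Matrix.of_apply,
      Matrix.cons_val', Matrix.cons_val_zero, Matrix.cons_val_one, Matrix.empty_val',
      Matrix.cons_val_fin_one, mul_one, mul_zero]
    linear_combination key i - M i 0 * hc

theorem inFrame_col_zero {s : Bool} {c : A} {M : Mat A} (h : ∀ i, (M * lineFrame s c) i 0 = 0)
    (i : Fin 2) : inFrame s c M i 0 = 0 := by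
  rw [inFrame, Matrix.mul_assoc, Matrix.mul_apply]
  exact Finset.sum_eq_zero fun l _ => by rw [h l, mul_zero]

theorem inFrame_sub_smul_one (s : Bool) (c a : A) (M : Mat A) :
    inFrame s c (M - a • (1 : Mat A)) = inFrame s c M - a • (1 : Mat A) := by
  rw [inFrame, inFrame, Matrix.mul_sub, Matrix.sub_mul, Matrix.mul_smul, Matrix.mul_one,
    Matrix.smul_mul, lineFrameInv_mul]

end Frames

section Triangular

variable {A : Type} [CommRing A]

theorem upper_pow {M : Mat A} (h : M 1 0 = 0) (n : ℕ) :
    (M ^ n) 1 0 = 0 ∧ (M ^ n) 1 1 = M 1 1 ^ n := by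
  induction n with
  | zero => simp
  | succ n ih =>
    constructor <;> rw [pow_succ, Matrix.mul_apply, Fin.sum_univ_two, ih.1]
    · simp [h]
    · simp [ih.2, pow_succ]

theorem upper_mul {M N : Mat A} (hM : M 1 0 = 0) (hN : N 1 0 = 0) :
    (M * N) 1 0 = 0 ∧ (M * N) 1 1 = M 1 1 * N 1 1 := by
  constructor <;> rw [Matrix.mul_apply, Fin.sum_univ_two, hM] <;> simp [hN]

end Triangular

variable {A : Type} [CommRing A] [IsDomain A] [IsDiscreteValuationRing A] [CharZero A] {p q : ℕ}

/-- The frame at `σ` and `F`. -/
theorem exists_frame_pair (hq : q.Prime) {S F : Mat A} (hS : S.charpoly = (X - 1) ^ 2)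
    (hrel : F * S = S ^ q * F)
    (hF : F.charpoly = X ^ 2 - C ((q : A) + 1) * X + C (q : A) ∨
      F.charpoly = X ^ 2 + C ((q : A) + 1) * X + C (q : A)) :
    ∃ (s : Bool) (c ε : A), ε ^ 2 = 1 ∧ F.trace = ε * ((q : A) + 1) ∧
      inFrame s c S 1 0 = 0 ∧ inFrame s c S 1 1 = 1 ∧
      inFrame s c F 1 0 = 0 ∧ inFrame s c F 1 1 = ε := by
  obtain ⟨ε₀, hε₀, htr, hdet⟩ : ∃ ε : A, ε ^ 2 = 1 ∧ F.trace = ε * ((q : A) + 1) ∧
      F.det = (q : A) := by
    rcases hF with h | h <;> rw [Matrix.charpoly_fin_two] at h
    · have e0 := congrArg (fun P => Polynomial.coeff P 0) h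
      have e1 := congrArg (fun P => Polynomial.coeff P 1) h
      simp at e0 e1
      exact ⟨1, one_pow 2, by linear_combination -e1, e0⟩
    · have e0 := congrArg (fun P => Polynomial.coeff P 0) h
      have e1 := congrArg (fun P => Polynomial.coeff P 1) h
      simp at e0 e1
      exact ⟨-1, by ring, by linear_combination -e1, e0⟩
  obtain ⟨hStr, hSdet⟩ : S.trace = 2 ∧ S.det = 1 := by
    rw [Matrix.charpoly_fin_two, show ((X : A[X]) - 1) ^ 2 = X ^ 2 - C 2 * X + C 1 by
      rw [map_ofNat, map_one]; ring] at hS
    have e0 := congrArg (fun P => Polynomial.coeff P 0) hS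
    have e1 := congrArg (fun P => Polynomial.coeff P 1) hS
    simp [Polynomial.coeff_one] at e0 e1
    exact ⟨by linear_combination e1, e0⟩
  by_cases hS1 : S = 1
  · have hM : (F - (ε₀ * (q : A)) • (1 : Mat A)).det = 0 := by
      rw [Matrix.det_fin_two] at hdet ⊢
      rw [Matrix.trace_fin_two] at htr
      simp only [Matrix.sub_apply, Matrix.smul_apply, Matrix.one_apply_eq, ne_eq, zero_ne_one,
        one_ne_zero, not_false_eq_true, Matrix.one_apply_ne, smul_eq_mul, mul_one, mul_zero,
        sub_zero]
      linear_combination hdet - ε₀ * (q : A) * htr - (q : A) * hε₀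
    obtain ⟨s, c, hk⟩ := exists_frame_kills hM
    have h0 := inFrame_col_zero hk
    have h00 := h0 0
    have h10 := h0 1
    rw [inFrame_sub_smul_one] at h00 h10
    simp at h00 h10
    refine ⟨s, c, ε₀, hε₀, htr, ?_, ?_, h10, ?_⟩
    · rw [hS1, inFrame_one]; rfl
    · rw [hS1, inFrame_one]; rfl
    · have ht := trace_inFrame s c F
      rw [Matrix.trace_fin_two (inFrame s c F), htr] at ht
      linear_combination ht - h00
  · have hN : (S - (1 : A) • (1 : Mat A)).det = 0 := by
      rw [Matrix.det_fin_two] at hSdet ⊢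
      rw [Matrix.trace_fin_two] at hStr
      simp only [Matrix.sub_apply, Matrix.smul_apply, Matrix.one_apply_eq, ne_eq, zero_ne_one,
        one_ne_zero, not_false_eq_true, Matrix.one_apply_ne, smul_eq_mul, mul_one, mul_zero,
        sub_zero]
      linear_combination hSdet - hStr
    obtain ⟨s, c, hk⟩ := exists_frame_kills hN
    have h0 := inFrame_col_zero hk
    have h00 := h0 0
    have h10 := h0 1
    rw [inFrame_sub_smul_one] at h00 h10
    simp at h00 h10
    have hS00 : inFrame s c S 0 0 = 1 := sub_eq_zero.mp h00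
    have hS11 : inFrame s c S 1 1 = 1 := by
      have ht := trace_inFrame s c S
      rw [Matrix.trace_fin_two (inFrame s c S), hStr, hS00] at ht
      linear_combination ht
    set n : A := inFrame s c S 0 1 with hn
    have hn0 : n ≠ 0 := by
      intro h
      apply hS1
      have hT : inFrame s c S = 1 := by
        ext i j
        fin_cases i <;> fin_cases j
        · simpa using hS00
        · simpa using h
        · simpa using h10
        · simpa using hS11
      have e := congrArg (fun M => lineFrame s c * M * lineFrameInv s c) hT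
      simp only [inFrame, Matrix.mul_one, lineFrame_mul_inv] at e
      rw [← Matrix.mul_assoc, ← Matrix.mul_assoc, lineFrame_mul_inv, Matrix.one_mul,
        Matrix.mul_assoc, lineFrame_mul_inv, Matrix.mul_one] at e
      exact e
    have hSk : ∀ k : ℕ, inFrame s c S ^ k = !![1, (k : A) * n; 0, 1] := by
      have hT : inFrame s c S = !![1, n; 0, 1] := by
        ext i j
        fin_cases i <;> fin_cases j <;> simp [hS00, hS11, h10, hn]
      intro k
      rw [hT]
      induction k with
      | zero => simp [Matrix.one_fin_two]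
      | succ k ih =>
        rw [pow_succ, ih, Matrix.mul_fin_two]
        push_cast
        congr <;> ring
    have e := congrArg (inFrame s c) hrel
    rw [inFrame_mul, inFrame_mul, inFrame_pow, hSk, ← pow_one (inFrame s c S), hSk,
      ← Matrix.ext_iff] at e
    have e01 := e 0 1
    have e00 := e 0 0
    simp [Matrix.mul_apply, Fin.sum_univ_two] at e00 e01
    set a := inFrame s c F 0 0
    set b := inFrame s c F 0 1
    set d := inFrame s c F 1 1
    set z := inFrame s c F 1 0
    have hz : z = 0 := by
      rcases e00 with (h | h) | h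
      · exact (hq.ne_zero h).elim
      · exact (hn0 h).elim
      · exact h
    have had : a = (q : A) * d := mul_right_cancel₀ hn0 (by linear_combination e01)
    have hd : d ^ 2 = 1 := by
      have h := det_inFrame s c F
      rw [Matrix.det_fin_two, hdet] at h
      refine mul_left_cancel₀ (Nat.cast_ne_zero.mpr hq.ne_zero : (q : A) ≠ 0) ?_
      linear_combination h - d * had + b * hz
    refine ⟨s, c, d, hd, ?_, h10, hS11, hz, rfl⟩
    rw [← trace_inFrame s c F, Matrix.trace_fin_two]
    linear_combination had

/-- The decomposition group is upper triangular with a sign in the corner. -/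
theorem exists_signLine [IsHausdorff (maximalIdeal A) A] (T : TamePair p q) (hp : p.Prime) (hq : q.Prime) (hpq : p ≠ q)
    (hpA : (p : A) ∈ maximalIdeal A) {r : Γℚ →* Mat A} (hr : IsCont r)
    (huni : ∀ τ ∈ T.A.inertiaSubgroupIn ℚ, (r τ).charpoly = (X - 1) ^ 2)
    (hfrob : (r T.F).charpoly = X ^ 2 - C ((q : A) + 1) * X + C (q : A) ∨
      (r T.F).charpoly = X ^ 2 + C ((q : A) + 1) * X + C (q : A)) :
    ∃ (s : Bool) (c ε : A), ε ^ 2 = 1 ∧ (r T.F).trace = ε * ((q : A) + 1) ∧
      inFrame s c (r T.F) 1 1 = ε ∧
      (∀ τ ∈ T.A.decompositionSubgroup ℚ,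
        inFrame s c (r τ) 1 0 = 0 ∧ inFrame s c (r τ) 1 1 ^ 2 = 1) ∧
      ∀ τ ∈ T.A.inertiaSubgroupIn ℚ, inFrame s c (r τ) 1 1 = 1 := by
  have hres : IsResTame p T.A r := by
    refine RT.isResTame_of_residual_sq_eq_zero hp hpA fun τ hτ => ?_
    have h := Matrix.aeval_self_charpoly (r τ)
    rw [huni τ hτ] at h
    simp only [map_pow, map_sub, aeval_X, map_one] at h
    have := congrArg (residue A).mapMatrix h
    simpa only [map_pow, map_sub, map_one, map_zero, RingHom.mapMatrix_apply] using this
  have hrel := T.adic_relation hp hq hpq hpA hr hres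
  obtain ⟨s, c, ε, hε, htr, hS0, hS1, hF0, hF1⟩ :=
    exists_frame_pair hq (huni _ T.hσ) hrel hfrob
  let π : ∀ n : ℕ, A →+* A ⧸ maximalIdeal A ^ n := fun n => Ideal.Quotient.mk _
  have hzero : ∀ x : A, (∀ n, π n x = 0) → x = 0 := fun x hx =>
    IsHausdorff.haus ‹_› x fun n => by
      rw [SModEq.zero, smul_eq_mul, Ideal.mul_top]
      exact Ideal.Quotient.eq_zero_iff_mem.mp (hx n)
  have word : ∀ τ : Γℚ, ∀ n a i : ℕ,
      (r τ).map (π n) = (r T.σ ^ a * r T.F ^ i).map (π n) →
        π n (inFrame s c (r τ) 1 0) = 0 ∧ π n (inFrame s c (r τ) 1 1) = π n (ε ^ i) := by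
    intro τ n a i h
    have e : (inFrame s c (r τ)).map (π n) = (inFrame s c (r T.σ ^ a * r T.F ^ i)).map (π n) := by
      rw [inFrame_map, inFrame_map, h]
    rw [inFrame_mul, inFrame_pow, inFrame_pow] at e
    obtain ⟨u1, u2⟩ := upper_pow hS0 a
    obtain ⟨v1, v2⟩ := upper_pow hF0 i
    obtain ⟨w1, w2⟩ := upper_mul u1 v1
    have e10 := congrFun (congrFun e 1) 0
    have e11 := congrFun (congrFun e 1) 1
    simp only [Matrix.map_apply] at e10 e11
    rw [w1, map_zero] at e10
    rw [w2, u2, v2, hS1, hF1, one_pow, one_mul] at e11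
    exact ⟨e10, e11⟩
  refine ⟨s, c, ε, hε, htr, hF1, fun τ hτ => ⟨hzero _ fun n => ?_, ?_⟩, fun τ hτ => ?_⟩
  · obtain ⟨a, i, h, -⟩ := T.exists_word hp hq hpq hpA hr hres hr hres hτ n
    exact (word τ n a i h).1
  · refine sub_eq_zero.mp (hzero _ fun n => ?_)
    obtain ⟨a, i, h, -⟩ := T.exists_word hp hq hpq hpA hr hres hr hres hτ n
    rw [map_sub, map_pow, (word τ n a i h).2, ← map_pow, ← pow_mul, mul_comm i, pow_mul, hε,
      one_pow, map_one, sub_self]
  · refine sub_eq_zero.mp (hzero _ fun n => ?_)
    obtain ⟨b, hb⟩ := T.inertia_eq_pow hp hq hpq (RT.isTameAt_levelHom hpA hr hres n) hτ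
    have h := congrArg Units.val hb
    simp only [Units.val_pow_eq_pow_val, RT.val_levelHom] at h
    have h' : (r τ).map (π n) = (r T.σ ^ b * r T.F ^ 0).map (π n) := by
      rw [pow_zero, mul_one, h, ← RingHom.mapMatrix_apply, ← map_pow]
      rfl
    rw [map_sub, (word τ n b 0 h').2, pow_zero, map_one, sub_self]

section Descent

variable (p₀ : ℕ) [Fact p₀.Prime] (O : Type) [CommRing O] [IsLocalRing O] [Algebra ℤ_[p₀] O]
  [IsLocalHom (algebraMap ℤ_[p₀] O)]

/-- A frame whose line is residually cut out by a nonzero nilpotent matrix with residues in the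
prime field is itself defined over `residueSubring`. -/
theorem lineFrame_mem_residueSubring {s : Bool} {c : O} {M : Mat (residueSubring p₀ O)}
    (hM : M.map (residue (residueSubring p₀ O)) ≠ 1)
    (hsq : ((M.map (residue (residueSubring p₀ O))) - 1) ^ 2 = 0)
    (h10 : inFrame s c (M.map (residueSubring p₀ O).val) 1 0 = 0) :
    c ∈ residueSubring p₀ O := by
  have : IsLocalHom (residueSubring p₀ O).val.toRingHom :=
    ⟨fun x hx => (isUnit_residueSubring_iff p₀ O x).mpr hx⟩
  let j : ResidueField (residueSubring p₀ O) →+* ResidueField O := ResidueField.map (residueSubring p₀ O).val.toRingHom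
  have hj : ∀ x : (residueSubring p₀ O), j (residue (residueSubring p₀ O) x) = residue O (x : O) := fun _ => rfl
  set N : Mat (ResidueField (residueSubring p₀ O)) := M.map (residue (residueSubring p₀ O)) - 1 with hNdef
  set c' : ResidueField O := residue O c with hc'
  have hT : (inFrame s c' (N.map j)) 1 0 = 0 := by
    have e : N.map j = (M.map (residueSubring p₀ O).val).map (residue O) - (1 : ResidueField O) • (1 : Mat _) := by
      rw [hNdef, one_smul]
      ext i k
      by_cases hik : i = k <;> simp [hik, hj]
    rw [e, inFrame_sub_smul_one, hc', ← inFrame_map]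
    rw [Matrix.sub_apply, Matrix.map_apply, h10]
    simp
  have hT00 : (inFrame s c' (N.map j)) 0 0 = 0 := by
    have h := congrArg (inFrame s c') (show (N.map j) ^ 2 = 0 by
      rw [← RingHom.mapMatrix_apply, ← map_pow, hsq, map_zero])
    rw [inFrame_pow, show inFrame s c' (0 : Mat _) = 0 by simp [inFrame]] at h
    have h00 := congrFun (congrFun h 0) 0
    simp [pow_two, Matrix.mul_apply, Fin.sum_univ_two, hT] at h00
    exact h00
  have hcol : ∀ i, (N.map j * lineFrame s c') i 0 = 0 := by
    intro i
    have e : N.map j * lineFrame s c' = lineFrame s c' * inFrame s c' (N.map j) := by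
      rw [inFrame, ← Matrix.mul_assoc, ← Matrix.mul_assoc, lineFrame_mul_inv, Matrix.one_mul]
    rw [e, Matrix.mul_apply, Fin.sum_univ_two, hT00, hT, mul_zero, mul_zero, add_zero]
  obtain ⟨x, hx⟩ : ∃ x : ResidueField (residueSubring p₀ O), j x = c' := by
    cases s with
    | true =>
      by_cases h : ∀ i, N i 1 = 0
      · refine absurd (sub_eq_zero.mp ?_) hM
        refine Matrix.ext fun i k => ?_
        have hi := hcol i
        simp [lineFrame, Matrix.mul_apply, Fin.sum_univ_two, h i] at hi
        show N i k = 0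
        fin_cases k
        · exact hi
        · exact h i
      · push Not at h
        obtain ⟨i, hi⟩ := h
        refine ⟨- N i 0 / N i 1, ?_⟩
        have hci := hcol i
        simp [lineFrame, Matrix.mul_apply, Fin.sum_univ_two] at hci
        have hne : j (N i 1) ≠ 0 := (map_ne_zero j).mpr hi
        rw [map_div₀, map_neg, div_eq_iff hne]
        linear_combination -hci
    | false =>
      by_cases h : ∀ i, N i 0 = 0
      · refine absurd (sub_eq_zero.mp ?_) hM
        refine Matrix.ext fun i k => ?_
        have hi := hcol i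
        simp [lineFrame, Matrix.mul_apply, Fin.sum_univ_two, h i] at hi
        show N i k = 0
        fin_cases k
        · exact h i
        · exact hi
      · push Not at h
        obtain ⟨i, hi⟩ := h
        refine ⟨- N i 1 / N i 0, ?_⟩
        have hci := hcol i
        simp [lineFrame, Matrix.mul_apply, Fin.sum_univ_two] at hci
        have hne : j (N i 0) ≠ 0 := (map_ne_zero j).mpr hi
        rw [map_div₀, map_neg, div_eq_iff hne]
        linear_combination -hci
  obtain ⟨n, rfl⟩ := residue_residueSubring_eq_intCast p₀ O x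
  rw [map_intCast] at hx
  refine ⟨n, ?_⟩
  rw [← residue_eq_zero_iff, map_sub, map_intCast, hx, hc', sub_self]

end Descent

end Fermat.Agent.TwoAdic
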